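import Mathlib

/-!
# S14 / C7: the `ω²`-eigen cyclotomic unit `η` modulo `(ζ - 1)^3`

For a prime `p ≥ 5`, `ζ` a primitive `p`-th root of unity in `𝓞 K`, `K = ℚ(ζ)`, and exponents
`m a ≡ a⁻² (mod p)`, the unit `η = ∏_{0 < a < p} ((1 - ζ^a)/(1 - ζ))^(m a)` satisfies
`η ≡ c₀ (1 - (ζ-1)²/24) mod (ζ-1)³`.  Hence `η^j * b^p` is never congruent to a `p`-th power (or to
a rational integer) modulo `(ζ-1)³` when `p ∤ j` and `b` is prime to `ζ - 1`.
-/

set_option autoImplicit false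

open NumberField Polynomial

namespace Fermat.Agent.H90

noncomputable section

variable (p : ℕ) [hp : Fact p.Prime]

/-- The truncated polynomial ring `𝔽_p[X]/(X^3)`, a model of `𝓞 K / (ζ-1)^3`. -/
abbrev R3 : Type := (ZMod p)[X] ⧸ Ideal.span {(X : (ZMod p)[X]) ^ 3}

/-- The quotient map `𝔽_p[X] → 𝔽_p[X]/(X^3)`. -/
abbrev R3mk : (ZMod p)[X] →+* R3 p := Ideal.Quotient.mk _

lemma R3mk_X_pow_three : (R3mk p X) ^ 3 = 0 := by
  rw [← map_pow]; exact Ideal.Quotient.eq_zero_iff_mem.mpr (Ideal.subset_span rfl)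

lemma R3mk_eq_iff (f g : (ZMod p)[X]) : R3mk p f = R3mk p g ↔ X ^ 3 ∣ f - g := by
  rw [Ideal.Quotient.eq, Ideal.mem_span_singleton]

/-- The `k`-th coefficient (`k < 3`) of an element of `𝔽_p[X]/(X^3)`. -/
def R3coeff (k : ℕ) (r : R3 p) : ZMod p := (Quotient.out r : (ZMod p)[X]).coeff k

lemma R3coeff_mk {k : ℕ} (hk : k < 3) (f : (ZMod p)[X]) : R3coeff p k (R3mk p f) = f.coeff k := by
  unfold R3coeff
  have h : R3mk p (Quotient.out (R3mk p f)) = R3mk p f := Ideal.Quotient.mk_out _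
  rw [R3mk_eq_iff] at h
  have := (X_pow_dvd_iff.mp h) k hk
  rw [coeff_sub, sub_eq_zero] at this
  exact this

lemma R3_ext {r s : R3 p} (h : ∀ k < 3, R3coeff p k r = R3coeff p k s) : r = s := by
  obtain ⟨f, rfl⟩ := Ideal.Quotient.mk_surjective r
  obtain ⟨g, rfl⟩ := Ideal.Quotient.mk_surjective s
  rw [R3mk_eq_iff, X_pow_dvd_iff]
  intro k hk
  have := h k hk
  rw [R3coeff_mk p hk, R3coeff_mk p hk] at this
  rw [coeff_sub, this, sub_self]

lemma R3coeff_mul_zero (r s : R3 p) :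
    R3coeff p 0 (r * s) = R3coeff p 0 r * R3coeff p 0 s := by
  obtain ⟨f, rfl⟩ := Ideal.Quotient.mk_surjective r
  obtain ⟨g, rfl⟩ := Ideal.Quotient.mk_surjective s
  rw [← map_mul, R3coeff_mk p (by norm_num), R3coeff_mk p (by norm_num),
    R3coeff_mk p (by norm_num), mul_coeff_zero]

lemma R3coeff_mul_one (r s : R3 p) :
    R3coeff p 1 (r * s) = R3coeff p 0 r * R3coeff p 1 s + R3coeff p 1 r * R3coeff p 0 s := by
  obtain ⟨f, rfl⟩ := Ideal.Quotient.mk_surjective r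
  obtain ⟨g, rfl⟩ := Ideal.Quotient.mk_surjective s
  rw [← map_mul, R3coeff_mk p (by norm_num), R3coeff_mk p (by norm_num),
    R3coeff_mk p (by norm_num), R3coeff_mk p (by norm_num), R3coeff_mk p (by norm_num),
    coeff_mul, Finset.Nat.sum_antidiagonal_eq_sum_range_succ_mk]
  simp [Finset.sum_range_succ]

lemma R3coeff_mul_two (r s : R3 p) :
    R3coeff p 2 (r * s) = R3coeff p 0 r * R3coeff p 2 s + R3coeff p 1 r * R3coeff p 1 s
      + R3coeff p 2 r * R3coeff p 0 s := by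
  obtain ⟨f, rfl⟩ := Ideal.Quotient.mk_surjective r
  obtain ⟨g, rfl⟩ := Ideal.Quotient.mk_surjective s
  rw [← map_mul, R3coeff_mk p (by norm_num), R3coeff_mk p (by norm_num),
    R3coeff_mk p (by norm_num), R3coeff_mk p (by norm_num), R3coeff_mk p (by norm_num),
    R3coeff_mk p (by norm_num), R3coeff_mk p (by norm_num), coeff_mul,
    Finset.Nat.sum_antidiagonal_eq_sum_range_succ_mk]
  simp [Finset.sum_range_succ]

lemma R3coeff_one_zero : R3coeff p 0 (1 : R3 p) = 1 := by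
  have : (1 : R3 p) = R3mk p 1 := (map_one _).symm
  rw [this, R3coeff_mk p (by norm_num), coeff_one_zero]

lemma R3coeff_one_one : R3coeff p 1 (1 : R3 p) = 0 := by
  have : (1 : R3 p) = R3mk p 1 := (map_one _).symm
  rw [this, R3coeff_mk p (by norm_num), coeff_one]
  simp

lemma R3coeff_one_two : R3coeff p 2 (1 : R3 p) = 0 := by
  have : (1 : R3 p) = R3mk p 1 := (map_one _).symm
  rw [this, R3coeff_mk p (by norm_num), coeff_one]
  simp

/-- First logarithmic invariant `c₁/c₀`. -/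
def R3D1 (r : R3 p) : ZMod p := R3coeff p 1 r / R3coeff p 0 r

/-- Second logarithmic invariant `c₂/c₀ - (c₁/c₀)²/2`. -/
def R3D2 (r : R3 p) : ZMod p :=
  R3coeff p 2 r / R3coeff p 0 r - (R3coeff p 1 r / R3coeff p 0 r) ^ 2 / 2

lemma R3D1_one : R3D1 p 1 = 0 := by
  simp [R3D1, R3coeff_one_one]

lemma R3D2_one : R3D2 p 1 = 0 := by
  simp [R3D2, R3coeff_one_one, R3coeff_one_two]

lemma R3D1_mul {r s : R3 p} (hr : R3coeff p 0 r ≠ 0) (hs : R3coeff p 0 s ≠ 0) :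
    R3D1 p (r * s) = R3D1 p r + R3D1 p s := by
  unfold R3D1
  rw [R3coeff_mul_zero, R3coeff_mul_one]
  field_simp
  ring

lemma R3D2_mul (h2 : (2 : ZMod p) ≠ 0) {r s : R3 p} (hr : R3coeff p 0 r ≠ 0)
    (hs : R3coeff p 0 s ≠ 0) :
    R3D2 p (r * s) = R3D2 p r + R3D2 p s := by
  unfold R3D2
  rw [R3coeff_mul_zero, R3coeff_mul_one, R3coeff_mul_two]
  field_simp
  ring

lemma R3_prod (h2 : (2 : ZMod p) ≠ 0) {ι : Type*} (s : Finset ι) (f : ι → R3 p)
    (h : ∀ i ∈ s, R3coeff p 0 (f i) ≠ 0) :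
    R3coeff p 0 (∏ i ∈ s, f i) ≠ 0 ∧ R3D1 p (∏ i ∈ s, f i) = ∑ i ∈ s, R3D1 p (f i)
      ∧ R3D2 p (∏ i ∈ s, f i) = ∑ i ∈ s, R3D2 p (f i) := by
  classical
  induction s using Finset.induction_on with
  | empty => simp [R3coeff_one_zero, R3D1_one, R3D2_one]
  | insert a s ha ih =>
    have h1 := h a (Finset.mem_insert_self a s)
    obtain ⟨i0, i1, i2⟩ := ih (fun i hi => h i (Finset.mem_insert_of_mem hi))
    rw [Finset.prod_insert ha, Finset.sum_insert ha, Finset.sum_insert ha]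
    refine ⟨?_, ?_, ?_⟩
    · rw [R3coeff_mul_zero]; exact mul_ne_zero h1 i0
    · rw [R3D1_mul p h1 i0, i1]
    · rw [R3D2_mul p h2 h1 i0, i2]

lemma R3_pow (h2 : (2 : ZMod p) ≠ 0) {r : R3 p} (hr : R3coeff p 0 r ≠ 0) (n : ℕ) :
    R3coeff p 0 (r ^ n) ≠ 0 ∧ R3D1 p (r ^ n) = n * R3D1 p r ∧ R3D2 p (r ^ n) = n * R3D2 p r := by
  have := R3_prod p h2 (Finset.range n) (fun _ => r) (fun _ _ => hr)
  simpa using this

/-- `Φ_p(X + 1) = X^(p-1)` over `𝔽_p`. -/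
lemma cyclotomic_comp_X_add_one_zmod' :
    (cyclotomic p (ZMod p)).comp (X + 1) = X ^ (p - 1) := by
  have h1 : cyclotomic p (ZMod p) * (X - 1) = X ^ p - 1 :=
    cyclotomic_prime_mul_X_sub_one (ZMod p) p
  have h2 : ((cyclotomic p (ZMod p)).comp (X + 1)) * X = X ^ (p - 1) * X := by
    have := congrArg (fun f => f.comp (X + 1)) h1
    simp only [mul_comp, sub_comp, X_comp, one_comp, pow_comp, add_sub_cancel_right] at this
    rw [this, add_pow_char, one_pow, add_sub_cancel_right, ← pow_succ,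
      Nat.sub_add_cancel hp.out.one_le]
  exact mul_right_cancel₀ X_ne_zero h2

lemma R3_aeval_intPoly (y : R3 p) (f : ℤ[X]) :
    aeval y f = aeval y (f.map (Int.castRingHom (ZMod p))) := by
  have := Polynomial.aeval_map_algebraMap (R := ℤ) (ZMod p) y f
  rw [← this]
  rfl

lemma R3_aeval_mk (g f : (ZMod p)[X]) : aeval (R3mk p g) f = R3mk p (f.comp g) := by
  have h := Polynomial.aeval_algHom_apply
    (Ideal.Quotient.mkₐ (ZMod p) (Ideal.span {(X : (ZMod p)[X]) ^ 3})) g f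
  rw [Ideal.Quotient.mkₐ_eq_mk] at h
  rw [h]
  rfl

lemma R3_aeval_cyclotomic (hp5 : 5 ≤ p) : aeval (1 + R3mk p X) (cyclotomic p ℤ) = 0 := by
  rw [R3_aeval_intPoly, map_cyclotomic_int]
  have h : (1 + R3mk p X : R3 p) = R3mk p (X + 1) := by
    rw [map_add, map_one, add_comm]
  rw [h, R3_aeval_mk, cyclotomic_comp_X_add_one_zmod']
  have h3 : p - 1 = 3 + (p - 4) := by omega
  rw [h3, pow_add, map_mul, map_pow, R3mk_X_pow_three, zero_mul]

variable {p}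
variable {K : Type*} [Field K] [NumberField K] [IsCyclotomicExtension {p} ℚ K]
variable {ζ : K} (hζ : IsPrimitiveRoot ζ p)

omit [IsCyclotomicExtension {p} ℚ K] in
lemma minpoly_toInteger' : minpoly ℤ hζ.toInteger = cyclotomic p ℤ := by
  rw [cyclotomic_eq_minpoly hζ hp.out.pos]
  exact (minpoly.algebraMap_eq (RingOfIntegers.coe_injective (K := K)) hζ.toInteger).symm

/-- The ring homomorphism `𝓞 K → 𝔽_p[X]/(X^3)`, `ζ ↦ 1 + X`. -/
def red3 (hp5 : 5 ≤ p) : 𝓞 K →ₐ[ℤ] R3 p :=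
  hζ.integralPowerBasis.lift (1 + R3mk p X) (by
    rw [hζ.integralPowerBasis_gen, minpoly_toInteger' hζ]
    exact R3_aeval_cyclotomic p hp5)

lemma red3_zeta (hp5 : 5 ≤ p) : red3 hζ hp5 hζ.toInteger = 1 + R3mk p X := by
  have h := hζ.integralPowerBasis_gen
  rw [← h]
  exact hζ.integralPowerBasis.lift_gen (1 + R3mk p X) _

lemma red3_zeta_sub_one (hp5 : 5 ≤ p) : red3 hζ hp5 (hζ.toInteger - 1) = R3mk p X := by
  rw [map_sub, red3_zeta, map_one, add_sub_cancel_left]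

lemma red3_eq_zero_of_dvd (hp5 : 5 ≤ p) {x : 𝓞 K} (h : (hζ.toInteger - 1) ^ 3 ∣ x) :
    red3 hζ hp5 x = 0 := by
  obtain ⟨y, rfl⟩ := h
  rw [map_mul, map_pow, red3_zeta_sub_one, R3mk_X_pow_three, zero_mul]

lemma red3_intCast (hp5 : 5 ≤ p) (c : ℤ) :
    red3 hζ hp5 (c : 𝓞 K) = R3mk p (C (c : ZMod p)) := by
  rw [map_intCast]
  simp

lemma sum_range_choose_hockey (k a : ℕ) :
    ∑ i ∈ Finset.range a, i.choose k = a.choose (k + 1) := by
  induction a with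
  | zero => simp
  | succ a ih => rw [Finset.sum_range_succ, ih, Nat.choose_succ_succ, add_comm]

lemma red3_geom_sum (hp5 : 5 ≤ p) (a : ℕ) :
    red3 hζ hp5 (∑ i ∈ Finset.range a, hζ.toInteger ^ i)
      = R3mk p (∑ i ∈ Finset.range a, (1 + X) ^ i) := by
  rw [map_sum, map_sum]
  refine Finset.sum_congr rfl fun i _ => ?_
  rw [map_pow, red3_zeta, map_pow, map_add, map_one]

lemma R3coeff_red3_geom_sum (hp5 : 5 ≤ p) (a : ℕ) {k : ℕ} (hk : k < 3) :
    R3coeff p k (red3 hζ hp5 (∑ i ∈ Finset.range a, hζ.toInteger ^ i))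
      = ((a.choose (k + 1) : ℕ) : ZMod p) := by
  rw [red3_geom_sum, R3coeff_mk p hk, finsetSum_coeff, ← sum_range_choose_hockey, Nat.cast_sum]
  refine Finset.sum_congr rfl fun i _ => ?_
  rw [coeff_one_add_X_pow]

/-- The constant-coefficient ring homomorphism `𝔽_p[X]/(X^3) → 𝔽_p`. -/
def R3ev0 (p : ℕ) [Fact p.Prime] : R3 p →+* ZMod p :=
  Ideal.Quotient.lift _ (Polynomial.constantCoeff) (by
    intro f hf
    rw [Ideal.mem_span_singleton] at hf
    have := (X_pow_dvd_iff.mp hf) 0 (by norm_num)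
    simpa using this)

omit [NumberField K] [IsCyclotomicExtension {p} ℚ K] in
lemma R3ev0_eq (r : R3 p) : R3ev0 p r = R3coeff p 0 r := by
  obtain ⟨f, rfl⟩ := Ideal.Quotient.mk_surjective r
  rw [R3coeff_mk p (by norm_num)]
  simp [R3ev0]

/-- If `ζ - 1` does not divide `b`, the reduction of `b` has nonzero constant coefficient. -/
lemma R3coeff_zero_red3_ne_zero (hp5 : 5 ≤ p) {b : 𝓞 K} (hb : ¬ (hζ.toInteger - 1) ∣ b) :
    R3coeff p 0 (red3 hζ hp5 b) ≠ 0 := by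
  intro h0
  apply hb
  set ψ : 𝓞 K →+* ZMod p := (R3ev0 p).comp (red3 hζ hp5).toRingHom with hψ
  have hπ : (hζ.toInteger - 1) ∈ RingHom.ker ψ := by
    rw [RingHom.mem_ker, hψ, RingHom.comp_apply]
    change R3ev0 p (red3 hζ hp5 (hζ.toInteger - 1)) = 0
    rw [red3_zeta_sub_one, R3ev0_eq, R3coeff_mk p (by norm_num)]
    simp
  have hprime : Prime (hζ.toInteger - 1) := hζ.zeta_sub_one_prime'
  have hmax : (Ideal.span {hζ.toInteger - 1} : Ideal (𝓞 K)).IsMaximal := by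
    have hP : (Ideal.span {hζ.toInteger - 1} : Ideal (𝓞 K)).IsPrime :=
      (Ideal.span_singleton_prime hprime.ne_zero).mpr hprime
    exact hP.isMaximal (by
      rw [Ne, Ideal.span_singleton_eq_bot]; exact hprime.ne_zero)
  have hle : Ideal.span {hζ.toInteger - 1} ≤ RingHom.ker ψ := by
    rw [Ideal.span_le, Set.singleton_subset_iff]; exact hπ
  have hne : RingHom.ker ψ ≠ ⊤ := RingHom.ker_ne_top ψ
  have heq : Ideal.span {hζ.toInteger - 1} = RingHom.ker ψ := hmax.eq_of_le hne hle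
  have hb' : b ∈ RingHom.ker ψ := by
    rw [RingHom.mem_ker, hψ, RingHom.comp_apply]
    change R3ev0 p (red3 hζ hp5 b) = 0
    rw [R3ev0_eq, h0]
  rw [← heq, Ideal.mem_span_singleton] at hb'
  exact hb'

section arithmetic

variable (p)

lemma two_mul_choose_two_cast (R : Type*) [CommRing R] (a : ℕ) :
    (2 : R) * (a.choose 2 : ℕ) = a * (a - 1) := by
  induction a with
  | zero => simp
  | succ a ih =>
    rw [Nat.choose_succ_succ, Nat.cast_add, mul_add, ih, Nat.choose_one_right]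
    push_cast
    ring

lemma six_mul_choose_three_cast (R : Type*) [CommRing R] (a : ℕ) :
    (6 : R) * (a.choose 3 : ℕ) = a * (a - 1) * (a - 2) := by
  induction a with
  | zero => simp
  | succ a ih =>
    have h2 := two_mul_choose_two_cast R a
    rw [Nat.choose_succ_succ, Nat.cast_add, mul_add, ih]
    have : (6 : R) * (a.choose 2 : ℕ) = 3 * (a * (a - 1)) := by rw [← h2]; ring
    rw [this]
    push_cast
    ring

lemma zmod_two_ne_zero (hp5 : 5 ≤ p) : (2 : ZMod p) ≠ 0 := by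
  intro h
  have h' : ((2 : ℕ) : ZMod p) = 0 := by exact_mod_cast h
  rw [ZMod.natCast_eq_zero_iff] at h'
  have := Nat.le_of_dvd (by norm_num) h'
  omega

lemma zmod_three_ne_zero (hp5 : 5 ≤ p) : (3 : ZMod p) ≠ 0 := by
  intro h
  have h' : ((3 : ℕ) : ZMod p) = 0 := by exact_mod_cast h
  rw [ZMod.natCast_eq_zero_iff] at h'
  have := Nat.le_of_dvd (by norm_num) h'
  omega

lemma zmod_natCast_ne_zero_of_mem_Ioo {a : ℕ} (ha : a ∈ Finset.Ioo 0 p) : (a : ZMod p) ≠ 0 := by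
  rw [Finset.mem_Ioo] at ha
  intro h
  rw [ZMod.natCast_eq_zero_iff] at h
  have := Nat.le_of_dvd ha.1 h
  omega

lemma sum_range_natCast_zmod (g : ZMod p → ZMod p) :
    ∑ a ∈ Finset.range p, g (a : ZMod p) = ∑ x : ZMod p, g x := by
  have : NeZero p := ⟨hp.out.ne_zero⟩
  refine Finset.sum_nbij' (fun a => (a : ZMod p)) (fun x => x.val) ?_ ?_ ?_ ?_ ?_
  · intro a _; exact Finset.mem_univ _
  · intro x _; exact Finset.mem_range.mpr (ZMod.val_lt x)
  · intro a ha; exact ZMod.val_natCast_of_lt (Finset.mem_range.mp ha)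
  · intro x _; exact ZMod.natCast_zmod_val x
  · intro a _; rfl

/-- Power sums over `0 < a < p` vanish in `𝔽_p` for exponents `0 < i < p - 1`. -/
lemma sum_Ioo_pow_eq_zero {i : ℕ} (hi0 : 0 < i) (hi : i < p - 1) :
    ∑ a ∈ Finset.Ioo 0 p, (a : ZMod p) ^ i = 0 := by
  have h1 : ∑ a ∈ Finset.Ioo 0 p, (a : ZMod p) ^ i = ∑ a ∈ Finset.range p, (a : ZMod p) ^ i := by
    refine Finset.sum_subset ?_ ?_
    · intro a ha
      rw [Finset.mem_Ioo] at ha
      exact Finset.mem_range.mpr ha.2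
    · intro a ha hna
      rw [Finset.mem_range] at ha
      rw [Finset.mem_Ioo, not_and_or] at hna
      have : a = 0 := by omega
      subst this
      simp [hi0.ne']
  rw [h1, sum_range_natCast_zmod p (fun x => x ^ i)]
  refine FiniteField.sum_pow_lt_card_sub_one (ZMod p) i ?_
  rw [ZMod.card]
  exact hi

lemma sum_Ioo_pow_pred :
    ∑ a ∈ Finset.Ioo 0 p, (a : ZMod p) ^ (p - 1) = -1 := by
  have h1 : ∀ a ∈ Finset.Ioo 0 p, (a : ZMod p) ^ (p - 1) = 1 := fun a ha =>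
    ZMod.pow_card_sub_one_eq_one (zmod_natCast_ne_zero_of_mem_Ioo p ha)
  rw [Finset.sum_congr rfl h1, Finset.sum_const, Nat.card_Ioo, nsmul_eq_mul, mul_one]
  have : p - 0 - 1 + 1 = p := by have := hp.out.one_le; omega
  have h2 : ((p - 0 - 1 : ℕ) : ZMod p) + 1 = 0 := by
    rw [← Nat.cast_one (R := ZMod p), ← Nat.cast_add, this, ZMod.natCast_self]
  exact eq_neg_of_add_eq_zero_left h2

/-- Exponents `m a ≡ a⁻²` are `≡ a^(p-3)`. -/
lemma eta_exponent_eq (hp5 : 5 ≤ p) {m : ℕ → ℕ}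
    (hm : ∀ a ∈ Finset.Ioo 0 p, ((m a : ℕ) : ZMod p) * (a : ZMod p) ^ 2 = 1)
    {a : ℕ} (ha : a ∈ Finset.Ioo 0 p) : ((m a : ℕ) : ZMod p) = (a : ZMod p) ^ (p - 3) := by
  have h1 : (a : ZMod p) ^ (p - 1) = 1 :=
    ZMod.pow_card_sub_one_eq_one (zmod_natCast_ne_zero_of_mem_Ioo p ha)
  have h2 : p - 1 = 2 + (p - 3) := by omega
  calc ((m a : ℕ) : ZMod p) = (m a : ZMod p) * (a : ZMod p) ^ (p - 1) := by rw [h1, mul_one]
    _ = ((m a : ZMod p) * (a : ZMod p) ^ 2) * (a : ZMod p) ^ (p - 3) := by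
        rw [h2, pow_add]; ring
    _ = (a : ZMod p) ^ (p - 3) := by rw [hm a ha, one_mul]

/-- The key power-sum evaluation: `∑ m_a (a-1)(a-5) = -1`. -/
lemma sum_eta_weights_two (hp5 : 5 ≤ p) {m : ℕ → ℕ}
    (hm : ∀ a ∈ Finset.Ioo 0 p, ((m a : ℕ) : ZMod p) * (a : ZMod p) ^ 2 = 1) :
    ∑ a ∈ Finset.Ioo 0 p, ((m a : ℕ) : ZMod p) * (((a : ZMod p) - 1) * ((a : ZMod p) - 5))
      = -1 := by
  have h1 : ∀ a ∈ Finset.Ioo 0 p,
      ((m a : ℕ) : ZMod p) * (((a : ZMod p) - 1) * ((a : ZMod p) - 5))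
        = (a : ZMod p) ^ (p - 1) - 6 * (a : ZMod p) ^ (p - 2) + 5 * (a : ZMod p) ^ (p - 3) := by
    intro a ha
    rw [eta_exponent_eq p hp5 hm ha]
    have e1 : p - 1 = (p - 3) + 2 := by omega
    have e2 : p - 2 = (p - 3) + 1 := by omega
    rw [e1, e2, pow_add, pow_add]
    ring
  rw [Finset.sum_congr rfl h1, Finset.sum_add_distrib, Finset.sum_sub_distrib,
    ← Finset.mul_sum, ← Finset.mul_sum, sum_Ioo_pow_pred,
    sum_Ioo_pow_eq_zero p (by omega) (by omega), sum_Ioo_pow_eq_zero p (by omega) (by omega)]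
  ring

/-- The first-order power-sum evaluation: `∑ m_a (a-1) = 0`. -/
lemma sum_eta_weights_one (hp5 : 5 ≤ p) {m : ℕ → ℕ}
    (hm : ∀ a ∈ Finset.Ioo 0 p, ((m a : ℕ) : ZMod p) * (a : ZMod p) ^ 2 = 1) :
    ∑ a ∈ Finset.Ioo 0 p, ((m a : ℕ) : ZMod p) * ((a : ZMod p) - 1) = 0 := by
  have h1 : ∀ a ∈ Finset.Ioo 0 p,
      ((m a : ℕ) : ZMod p) * ((a : ZMod p) - 1)
        = (a : ZMod p) ^ (p - 2) - (a : ZMod p) ^ (p - 3) := by
    intro a ha
    rw [eta_exponent_eq p hp5 hm ha]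
    have e2 : p - 2 = (p - 3) + 1 := by omega
    rw [e2, pow_add]
    ring
  rw [Finset.sum_congr rfl h1, Finset.sum_sub_distrib,
    sum_Ioo_pow_eq_zero p (by omega) (by omega), sum_Ioo_pow_eq_zero p (by omega) (by omega)]
  ring

end arithmetic

/-- The `ω²`-eigen cyclotomic unit `η = ∏_{0<a<p} ((1 - z^a)/(1 - z))^(m a)`, written without
division as `∏ (∑_{i<a} z^i)^(m a)`. -/
def etaElt {A : Type*} [CommRing A] (p : ℕ) (z : A) (m : ℕ → ℕ) : A :=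
  ∏ a ∈ Finset.Ioo 0 p, (∑ i ∈ Finset.range a, z ^ i) ^ m a

lemma etaElt_isUnit {A : Type*} [CommRing A] [IsDomain A] {n : ℕ} (hn : n.Prime) {z : A}
    (hz : IsPrimitiveRoot z n) (m : ℕ → ℕ) : IsUnit (etaElt n z m) := by
  unfold etaElt
  rw [IsUnit.prod_iff]
  intro a ha
  rw [Finset.mem_Ioo] at ha
  refine IsUnit.pow _ (hz.geom_sum_isUnit hn.two_le ?_)
  exact (Nat.coprime_primes_or_lt hn ha).symm
where
  Nat.coprime_primes_or_lt {n a : ℕ} (hn : n.Prime) (ha : 0 < a ∧ a < n) : n.Coprime a :=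
    (Nat.Prime.coprime_iff_not_dvd hn).mpr fun h => by
      have := Nat.le_of_dvd ha.1 h
      omega

section main

variable (hp5 : 5 ≤ p)

lemma R3_uA (a : ℕ) (ha : a ∈ Finset.Ioo 0 p) :
    R3coeff p 0 (red3 hζ hp5 (∑ i ∈ Finset.range a, hζ.toInteger ^ i)) ≠ 0
    ∧ R3D1 p (red3 hζ hp5 (∑ i ∈ Finset.range a, hζ.toInteger ^ i)) = ((a : ZMod p) - 1) / 2
    ∧ R3D2 p (red3 hζ hp5 (∑ i ∈ Finset.range a, hζ.toInteger ^ i))
        = ((a : ZMod p) - 1) * ((a : ZMod p) - 5) / 24 := by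
  have ha0 : (a : ZMod p) ≠ 0 := zmod_natCast_ne_zero_of_mem_Ioo p ha
  have h2 : (2 : ZMod p) ≠ 0 := zmod_two_ne_zero p hp5
  have h3 : (3 : ZMod p) ≠ 0 := zmod_three_ne_zero p hp5
  have h24 : (24 : ZMod p) ≠ 0 := by
    have : (24 : ZMod p) = 2 * 2 * 2 * 3 := by norm_num
    rw [this]
    exact mul_ne_zero (mul_ne_zero (mul_ne_zero h2 h2) h2) h3
  have h6 : (6 : ZMod p) ≠ 0 := by
    have : (6 : ZMod p) = 2 * 3 := by norm_num
    rw [this]
    exact mul_ne_zero h2 h3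
  have c0 := R3coeff_red3_geom_sum hζ hp5 a (k := 0) (by norm_num)
  have c1 := R3coeff_red3_geom_sum hζ hp5 a (k := 1) (by norm_num)
  have c2 := R3coeff_red3_geom_sum hζ hp5 a (k := 2) (by norm_num)
  simp only [zero_add, Nat.choose_one_right, Nat.reduceAdd] at c0 c1 c2
  have e2 := two_mul_choose_two_cast (ZMod p) a
  have e3 := six_mul_choose_three_cast (ZMod p) a
  have c1' : ((a.choose 2 : ℕ) : ZMod p) = (a : ZMod p) * (a - 1) / 2 := by
    rw [← e2]; field_simp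
  have c2' : ((a.choose 3 : ℕ) : ZMod p) = (a : ZMod p) * (a - 1) * (a - 2) / 6 := by
    rw [← e3]; field_simp
  refine ⟨by rw [c0]; exact ha0, ?_, ?_⟩
  · unfold R3D1
    rw [c0, c1, c1']
    field_simp
  · unfold R3D2
    rw [c0, c1, c2, c1', c2']
    have h24' : (24 : ZMod p) = 2 * 2 * 6 := by norm_num
    have h6' : (6 : ZMod p) = 2 * 3 := by norm_num
    field_simp
    ring

/-- The reduction of `η` modulo `(ζ-1)^3` has nonzero constant term, vanishing first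
logarithmic invariant, and second logarithmic invariant `-1/24`. -/
lemma R3_eta {m : ℕ → ℕ}
    (hm : ∀ a ∈ Finset.Ioo 0 p, ((m a : ℕ) : ZMod p) * (a : ZMod p) ^ 2 = 1) :
    R3coeff p 0 (red3 hζ hp5 (etaElt p hζ.toInteger m)) ≠ 0
    ∧ R3D1 p (red3 hζ hp5 (etaElt p hζ.toInteger m)) = 0
    ∧ R3D2 p (red3 hζ hp5 (etaElt p hζ.toInteger m)) = -1 / 24 := by
  have h2 : (2 : ZMod p) ≠ 0 := zmod_two_ne_zero p hp5
  unfold etaElt
  rw [map_prod]
  simp only [map_pow]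
  have hpow : ∀ a ∈ Finset.Ioo 0 p,
      R3coeff p 0 ((red3 hζ hp5 (∑ i ∈ Finset.range a, hζ.toInteger ^ i)) ^ m a) ≠ 0
      ∧ R3D1 p ((red3 hζ hp5 (∑ i ∈ Finset.range a, hζ.toInteger ^ i)) ^ m a)
          = (m a : ZMod p) * (((a : ZMod p) - 1) / 2)
      ∧ R3D2 p ((red3 hζ hp5 (∑ i ∈ Finset.range a, hζ.toInteger ^ i)) ^ m a)
          = (m a : ZMod p) * (((a : ZMod p) - 1) * ((a : ZMod p) - 5) / 24) := by
    intro a ha
    obtain ⟨u0, u1, u2⟩ := R3_uA hζ hp5 a ha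
    obtain ⟨v0, v1, v2⟩ := R3_pow p h2 u0 (m a)
    exact ⟨v0, by rw [v1, u1], by rw [v2, u2]⟩
  obtain ⟨w0, w1, w2⟩ := R3_prod p h2 (Finset.Ioo 0 p)
    (fun a => (red3 hζ hp5 (∑ i ∈ Finset.range a, hζ.toInteger ^ i)) ^ m a)
    (fun a ha => (hpow a ha).1)
  refine ⟨w0, ?_, ?_⟩
  · rw [w1, Finset.sum_congr rfl (fun a ha => (hpow a ha).2.1)]
    have := sum_eta_weights_one p hp5 hm
    calc ∑ a ∈ Finset.Ioo 0 p, (m a : ZMod p) * (((a : ZMod p) - 1) / 2)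
        = (∑ a ∈ Finset.Ioo 0 p, (m a : ZMod p) * ((a : ZMod p) - 1)) / 2 := by
          rw [Finset.sum_div]
          refine Finset.sum_congr rfl fun a _ => ?_
          ring
      _ = 0 := by rw [this, zero_div]
  · rw [w2, Finset.sum_congr rfl (fun a ha => (hpow a ha).2.2)]
    have := sum_eta_weights_two p hp5 hm
    calc ∑ a ∈ Finset.Ioo 0 p, (m a : ZMod p) * (((a : ZMod p) - 1) * ((a : ZMod p) - 5) / 24)
        = (∑ a ∈ Finset.Ioo 0 p, (m a : ZMod p) * (((a : ZMod p) - 1) * ((a : ZMod p) - 5)))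
            / 24 := by
          rw [Finset.sum_div]
          refine Finset.sum_congr rfl fun a _ => ?_
          ring
      _ = -1 / 24 := by rw [this]

include hp5

/-- **S14 / C7, core form.**  For `p ∤ j` and `b` prime to `ζ - 1`, the element `η^j * b^p` is not
congruent to any `p`-th power modulo `(ζ - 1)^3`. -/
theorem eta_pow_mul_pow_not_congr_pow {m : ℕ → ℕ}
    (hm : ∀ a ∈ Finset.Ioo 0 p, ((m a : ℕ) : ZMod p) * (a : ZMod p) ^ 2 = 1)
    {j : ℕ} (hj : ¬ p ∣ j) {b : 𝓞 K} (hb : ¬ (hζ.toInteger - 1) ∣ b) (c : 𝓞 K) :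
    ¬ ((hζ.toInteger - 1) ^ 3 ∣ etaElt p hζ.toInteger m ^ j * b ^ p - c ^ p) := by
  intro hdvd
  have h2 : (2 : ZMod p) ≠ 0 := zmod_two_ne_zero p hp5
  have h3 : (3 : ZMod p) ≠ 0 := zmod_three_ne_zero p hp5
  have h24 : (24 : ZMod p) ≠ 0 := by
    have : (24 : ZMod p) = 2 * 2 * 2 * 3 := by norm_num
    rw [this]
    exact mul_ne_zero (mul_ne_zero (mul_ne_zero h2 h2) h2) h3
  have hred := red3_eq_zero_of_dvd hζ hp5 hdvd
  rw [map_sub, sub_eq_zero, map_mul, map_pow, map_pow, map_pow] at hred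
  obtain ⟨e0, -, e2⟩ := R3_eta hζ hp5 hm
  obtain ⟨f0, -, f2⟩ := R3_pow p h2 e0 j
  have b0 := R3coeff_zero_red3_ne_zero hζ hp5 hb
  obtain ⟨g0, -, g2⟩ := R3_pow p h2 b0 p
  have hL0 : R3coeff p 0 (red3 hζ hp5 (etaElt p hζ.toInteger m) ^ j * red3 hζ hp5 b ^ p) ≠ 0 := by
    rw [R3coeff_mul_zero]; exact mul_ne_zero f0 g0
  have hL2 : R3D2 p (red3 hζ hp5 (etaElt p hζ.toInteger m) ^ j * red3 hζ hp5 b ^ p)
      = (j : ZMod p) * (-1 / 24) := by
    rw [R3D2_mul p h2 f0 g0, f2, g2, e2, ZMod.natCast_self, zero_mul, add_zero]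
  have c0 : R3coeff p 0 (red3 hζ hp5 c) ≠ 0 := by
    intro h
    apply hL0
    rw [hred]
    obtain ⟨q, hq⟩ : ∃ q, p = q + 1 := ⟨p - 1, by have := hp.out.one_le; omega⟩
    have hpow : red3 hζ hp5 c ^ p = red3 hζ hp5 c ^ q * red3 hζ hp5 c := by
      rw [← pow_succ, ← hq]
    rw [hpow, R3coeff_mul_zero, h, mul_zero]
  obtain ⟨-, -, k2⟩ := R3_pow p h2 c0 p
  rw [hred, k2, ZMod.natCast_self, zero_mul] at hL2
  have hj0 : (j : ZMod p) = 0 := by
    rcases mul_eq_zero.mp hL2.symm with h | h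
    · exact h
    · exfalso
      rw [div_eq_zero_iff] at h
      rcases h with h | h
      · exact one_ne_zero (neg_eq_zero.mp h)
      · exact h24 h
  exact hj ((ZMod.natCast_eq_zero_iff j p).mp hj0)

/-- **S14 / C7, integer form.**  For `p ∤ j` and `b` prime to `ζ - 1`, the element `η^j * b^p` is
not congruent to a rational integer modulo `(ζ - 1)^3`. -/
theorem eta_pow_mul_pow_not_congr_int {m : ℕ → ℕ}
    (hm : ∀ a ∈ Finset.Ioo 0 p, ((m a : ℕ) : ZMod p) * (a : ZMod p) ^ 2 = 1)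
    {j : ℕ} (hj : ¬ p ∣ j) {b : 𝓞 K} (hb : ¬ (hζ.toInteger - 1) ∣ b) (c : ℤ) :
    ¬ ((hζ.toInteger - 1) ^ 3 ∣ etaElt p hζ.toInteger m ^ j * b ^ p - (c : 𝓞 K)) := by
  intro hdvd
  have h2 : (2 : ZMod p) ≠ 0 := zmod_two_ne_zero p hp5
  have h3 : (3 : ZMod p) ≠ 0 := zmod_three_ne_zero p hp5
  have h24 : (24 : ZMod p) ≠ 0 := by
    have : (24 : ZMod p) = 2 * 2 * 2 * 3 := by norm_num
    rw [this]
    exact mul_ne_zero (mul_ne_zero (mul_ne_zero h2 h2) h2) h3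
  have hred := red3_eq_zero_of_dvd hζ hp5 hdvd
  rw [map_sub, sub_eq_zero, map_mul, map_pow, map_pow, red3_intCast] at hred
  obtain ⟨e0, -, e2⟩ := R3_eta hζ hp5 hm
  obtain ⟨f0, -, f2⟩ := R3_pow p h2 e0 j
  have b0 := R3coeff_zero_red3_ne_zero hζ hp5 hb
  obtain ⟨g0, -, g2⟩ := R3_pow p h2 b0 p
  have hL2 : R3D2 p (red3 hζ hp5 (etaElt p hζ.toInteger m) ^ j * red3 hζ hp5 b ^ p)
      = (j : ZMod p) * (-1 / 24) := by
    rw [R3D2_mul p h2 f0 g0, f2, g2, e2, ZMod.natCast_self, zero_mul, add_zero]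
  have hR2 : R3D2 p (R3mk p (C (c : ZMod p))) = 0 := by
    unfold R3D2
    rw [R3coeff_mk p (by norm_num), R3coeff_mk p (by norm_num), R3coeff_mk p (by norm_num),
      coeff_C_zero, coeff_C_of_ne_zero (by norm_num), coeff_C_of_ne_zero (by norm_num)]
    simp
  rw [hred, hR2] at hL2
  have hj0 : (j : ZMod p) = 0 := by
    rcases mul_eq_zero.mp hL2.symm with h | h
    · exact h
    · exfalso
      rw [div_eq_zero_iff] at h
      rcases h with h | h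
      · exact one_ne_zero (neg_eq_zero.mp h)
      · exact h24 h
  exact hj ((ZMod.natCast_eq_zero_iff j p).mp hj0)

/-- `η^j` is not a `p`-th power in `𝓞 K` when `p ∤ j`. -/
theorem eta_pow_ne_pow {m : ℕ → ℕ}
    (hm : ∀ a ∈ Finset.Ioo 0 p, ((m a : ℕ) : ZMod p) * (a : ZMod p) ^ 2 = 1)
    {j : ℕ} (hj : ¬ p ∣ j) (y : 𝓞 K) : etaElt p hζ.toInteger m ^ j ≠ y ^ p := by
  intro h
  have h1 : ¬ (hζ.toInteger - 1) ∣ (1 : 𝓞 K) := fun hd =>
    (hζ.zeta_sub_one_prime').not_isUnit (isUnit_of_dvd_one hd)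
  refine eta_pow_mul_pow_not_congr_pow hζ hp5 hm hj h1 y ?_
  rw [one_pow, mul_one, h, sub_self]
  exact dvd_zero _

/-- `η^j` is not a `p`-th power in `K` when `p ∤ j`. -/
theorem eta_pow_ne_pow_field {m : ℕ → ℕ}
    (hm : ∀ a ∈ Finset.Ioo 0 p, ((m a : ℕ) : ZMod p) * (a : ZMod p) ^ 2 = 1)
    {j : ℕ} (hj : ¬ p ∣ j) (y : K) :
    ((etaElt p hζ.toInteger m ^ j : 𝓞 K) : K) ≠ y ^ p := by
  intro h
  have hy : IsIntegral ℤ y := by
    refine IsIntegral.of_pow hp.out.pos ?_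
    rw [← h]
    exact RingOfIntegers.isIntegral_coe _
  obtain ⟨y', hy'⟩ : ∃ y' : 𝓞 K, (y' : K) = y := ⟨⟨y, hy⟩, rfl⟩
  refine eta_pow_ne_pow hζ hp5 hm hj y' ?_
  apply RingOfIntegers.coe_injective
  change ((etaElt p hζ.toInteger m ^ j : 𝓞 K) : K) = ((y' ^ p : 𝓞 K) : K)
  rw [h, ← hy']
  push_cast
  rfl

end main

section integer_versions

variable (p) (K)

omit hp [NumberField K] [IsCyclotomicExtension {p} ℚ K] in
lemma isPrimitiveRoot_coe {z : 𝓞 K} (hz : IsPrimitiveRoot z p) :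
    IsPrimitiveRoot (z : K) p :=
  hz.map_of_injective (f := algebraMap (𝓞 K) K) RingOfIntegers.coe_injective

omit [NumberField K] [IsCyclotomicExtension {p} ℚ K] in
lemma toInteger_coe {z : 𝓞 K} (hz : IsPrimitiveRoot z p) :
    (isPrimitiveRoot_coe p K hz).toInteger = z :=
  RingOfIntegers.ext rfl

/-- **S14 / C7** for a primitive root `z : 𝓞 K`: `η^j * b^p` is not congruent to a `p`-th power
modulo `(z - 1)^3`, for `p ∤ j` and `b` prime to `z - 1`. -/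
theorem etaElt_pow_mul_pow_not_congr_pow (hp5 : 5 ≤ p) {z : 𝓞 K} (hz : IsPrimitiveRoot z p)
    {m : ℕ → ℕ} (hm : ∀ a ∈ Finset.Ioo 0 p, ((m a : ℕ) : ZMod p) * (a : ZMod p) ^ 2 = 1)
    {j : ℕ} (hj : ¬ p ∣ j) {b : 𝓞 K} (hb : ¬ (z - 1) ∣ b) (c : 𝓞 K) :
    ¬ ((z - 1) ^ 3 ∣ etaElt p z m ^ j * b ^ p - c ^ p) := by
  have h := eta_pow_mul_pow_not_congr_pow (isPrimitiveRoot_coe p K hz) hp5 hm hj
    (b := b) (by rw [toInteger_coe p K hz]; exact hb) c
  rw [toInteger_coe p K hz] at h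
  exact h

/-- **S14 / C7** for a primitive root `z : 𝓞 K`: `η^j * b^p` is not congruent to a rational
integer modulo `(z - 1)^3`, for `p ∤ j` and `b` prime to `z - 1`. -/
theorem etaElt_pow_mul_pow_not_congr_int (hp5 : 5 ≤ p) {z : 𝓞 K} (hz : IsPrimitiveRoot z p)
    {m : ℕ → ℕ} (hm : ∀ a ∈ Finset.Ioo 0 p, ((m a : ℕ) : ZMod p) * (a : ZMod p) ^ 2 = 1)
    {j : ℕ} (hj : ¬ p ∣ j) {b : 𝓞 K} (hb : ¬ (z - 1) ∣ b) (c : ℤ) :
    ¬ ((z - 1) ^ 3 ∣ etaElt p z m ^ j * b ^ p - (c : 𝓞 K)) := by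
  have h := eta_pow_mul_pow_not_congr_int (isPrimitiveRoot_coe p K hz) hp5 hm hj
    (b := b) (by rw [toInteger_coe p K hz]; exact hb) c
  rw [toInteger_coe p K hz] at h
  exact h

/-- `η^j` (`p ∤ j`) is not a `p`-th power in `𝓞 K`. -/
theorem etaElt_pow_ne_pow (hp5 : 5 ≤ p) {z : 𝓞 K} (hz : IsPrimitiveRoot z p)
    {m : ℕ → ℕ} (hm : ∀ a ∈ Finset.Ioo 0 p, ((m a : ℕ) : ZMod p) * (a : ZMod p) ^ 2 = 1)
    {j : ℕ} (hj : ¬ p ∣ j) (y : 𝓞 K) : etaElt p z m ^ j ≠ y ^ p := by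
  have h := eta_pow_ne_pow (isPrimitiveRoot_coe p K hz) hp5 hm hj y
  rw [toInteger_coe p K hz] at h
  exact h

/-- `η^j` (`p ∤ j`) is not a `p`-th power in `K`. -/
theorem etaElt_pow_ne_pow_field (hp5 : 5 ≤ p) {z : 𝓞 K} (hz : IsPrimitiveRoot z p)
    {m : ℕ → ℕ} (hm : ∀ a ∈ Finset.Ioo 0 p, ((m a : ℕ) : ZMod p) * (a : ZMod p) ^ 2 = 1)
    {j : ℕ} (hj : ¬ p ∣ j) (y : K) : ((etaElt p z m ^ j : 𝓞 K) : K) ≠ y ^ p := by
  have h := eta_pow_ne_pow_field (isPrimitiveRoot_coe p K hz) hp5 hm hj y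
  rw [toInteger_coe p K hz] at h
  exact h

/-- The canonical exponents `a ↦ a^(p-3) % p` satisfy the hypothesis `m a * a² ≡ 1`. -/
lemma eta_canonical_exponent (hp5 : 5 ≤ p) :
    ∀ a ∈ Finset.Ioo 0 p, (((a ^ (p - 3) % p : ℕ) : ℕ) : ZMod p) * (a : ZMod p) ^ 2 = 1 := by
  intro a ha
  rw [ZMod.natCast_mod, Nat.cast_pow, ← pow_add]
  have : p - 3 + 2 = p - 1 := by omega
  rw [this]
  exact ZMod.pow_card_sub_one_eq_one (zmod_natCast_ne_zero_of_mem_Ioo p ha)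

end integer_versions

end

end Fermat.Agent.H90

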