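import Fermat.Agent.H13.S14Interfaces
import Fermat.Agent.H90.EtaLocal

/-!
# S14 / C7 wrappers: `EtaLocalStatement` and `EtaUnitStatement` for `H13.etaInt`
-/

set_option autoImplicit false

open NumberField

namespace Fermat.Agent.H90

lemma etaInt_eq_etaElt (p : ℕ) [Fact p.Prime] (K : Type) [Field K] [NumberField K]
    {ζ : K} (hζ : IsPrimitiveRoot ζ p) :
    Fermat.Agent.H13.etaInt p hζ = etaElt p hζ.toInteger (fun a => a ^ (p - 3) % p) := by
  unfold Fermat.Agent.H13.etaInt etaElt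
  have h : Finset.Ico 1 p = Finset.Ioo 0 p := by
    ext a
    simp only [Finset.mem_Ico, Finset.mem_Ioo]
    omega
  rw [h]

/-- **S14 / C7**: `η^j` (`p ∤ j`) is not congruent to a rational integer modulo `p`. -/
theorem etaLocalStatement : Fermat.Agent.H13.EtaLocalStatement := by
  intro p _ hp5 K _ _ _ ζ hζ j hj c hdvd
  rw [etaInt_eq_etaElt] at hdvd
  have h1 : ¬ (hζ.toInteger - 1) ∣ (1 : 𝓞 K) := fun hd =>
    (hζ.zeta_sub_one_prime').not_isUnit (isUnit_of_dvd_one hd)
  refine eta_pow_mul_pow_not_congr_int hζ hp5 (eta_canonical_exponent p hp5) hj h1 c ?_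
  rw [one_pow, mul_one]
  have h2 : (hζ.toInteger - 1) ^ 3 ∣ ((p : ℕ) : 𝓞 K) :=
    (pow_dvd_pow _ (by omega : 3 ≤ p - 1)).trans
      (IsCyclotomicExtension.Rat.associated_zeta_sub_one_pow_prime p hζ).dvd
  exact h2.trans hdvd

/-- **S14 / C7'**: `η` is a unit. -/
theorem etaUnitStatement : Fermat.Agent.H13.EtaUnitStatement := by
  intro p hp _ K _ _ _ ζ hζ
  rw [etaInt_eq_etaElt]
  exact etaElt_isUnit hp.out hζ.toInteger_isPrimitiveRoot _

end Fermat.Agent.H90
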