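import Fermat.Agent.H13.S14Core
import Fermat.Agent.H90.S14EtaWrap

/-!
# S14 / C7b wrapper: `EtaNotPowStatement` (`η` is not a `p`-th power in `𝓞 K`)
-/

set_option autoImplicit false

open NumberField

namespace Fermat.Agent.H90

/-- **S14 / C7b**: `η` is not a `p`-th power. -/
theorem etaNotPowStatement : Fermat.Agent.H13.EtaNotPowStatement := by
  intro p hp hp5 K _ _ _ ζ hζ hx
  obtain ⟨x, hx⟩ := hx
  have h1 : ¬ p ∣ 1 := fun h => hp.out.one_lt.ne' (Nat.dvd_one.mp h)
  refine eta_pow_ne_pow hζ hp5 (eta_canonical_exponent p hp5) h1 x ?_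
  rw [pow_one, ← etaInt_eq_etaElt, hx]

end Fermat.Agent.H90
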