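import Fermat.Agent.H13.S14Interfaces
import Fermat.Agent.H90.EtaLocal

/-!
# S14 / C6 support: the cyclotomic unit `η = etaInt` lies in the `ω²`-eigenspace

For `σ ζ = ζ^k` we show `σ η = η^(k²) · w^p` for a unit `w`.
-/

set_option autoImplicit false

open NumberField

namespace Fermat.Agent.H90

section rel

variable {A : Type*} [CommRing A] (p : ℕ)

/-- `x` and `y` differ by the `p`-th power of a unit. -/
def PthRel (x y : A) : Prop := ∃ w : Aˣ, x = y * (w : A) ^ p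

variable {p}

lemma PthRel.refl (x : A) : PthRel p x x := ⟨1, by simp⟩

lemma PthRel.of_eq {x y : A} (h : x = y) : PthRel p x y := h ▸ PthRel.refl x

lemma PthRel.trans {x y z : A} (h1 : PthRel p x y) (h2 : PthRel p y z) : PthRel p x z := by
  obtain ⟨w, hw⟩ := h1
  obtain ⟨v, hv⟩ := h2
  refine ⟨v * w, ?_⟩
  rw [hw, hv, Units.val_mul, mul_pow, mul_assoc]

lemma PthRel.symm {x y : A} (h : PthRel p x y) : PthRel p y x := by
  obtain ⟨w, hw⟩ := h
  refine ⟨w⁻¹, ?_⟩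
  rw [hw, mul_assoc, ← mul_pow, Units.mul_inv, one_pow, mul_one]

lemma PthRel.mul {x y x' y' : A} (h1 : PthRel p x y) (h2 : PthRel p x' y') :
    PthRel p (x * x') (y * y') := by
  obtain ⟨w, hw⟩ := h1
  obtain ⟨v, hv⟩ := h2
  refine ⟨w * v, ?_⟩
  rw [hw, hv, Units.val_mul, mul_pow]
  ring

lemma PthRel.pow {x y : A} (h : PthRel p x y) (n : ℕ) : PthRel p (x ^ n) (y ^ n) := by
  obtain ⟨w, hw⟩ := h
  refine ⟨w ^ n, ?_⟩
  rw [hw, mul_pow, Units.val_pow_eq_pow_val, ← pow_mul, ← pow_mul, mul_comm p n]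

lemma PthRel.prod {ι : Type*} (s : Finset ι) (f g : ι → A)
    (h : ∀ i ∈ s, PthRel p (f i) (g i)) : PthRel p (∏ i ∈ s, f i) (∏ i ∈ s, g i) := by
  classical
  induction s using Finset.induction_on with
  | empty => simpa using PthRel.refl (1 : A)
  | insert a s ha ih =>
    rw [Finset.prod_insert ha, Finset.prod_insert ha]
    exact (h a (Finset.mem_insert_self a s)).mul
      (ih fun i hi => h i (Finset.mem_insert_of_mem hi))

/-- Powers of a unit with exponents congruent mod `p` differ by a `p`-th power of a unit. -/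
lemma PthRel.pow_of_modEq {x : A} (hx : IsUnit x) {e e' : ℕ} (h : e ≡ e' [MOD p]) :
    PthRel p (x ^ e) (x ^ e') := by
  wlog hle : e' ≤ e generalizing e e'
  · exact (this h.symm (le_of_not_ge hle)).symm
  obtain ⟨t, ht⟩ := (Nat.modEq_iff_dvd' hle).mp h.symm
  refine ⟨hx.unit ^ t, ?_⟩
  have he : e = e' + p * t := by omega
  rw [he, pow_add, Units.val_pow_eq_pow_val, IsUnit.unit_spec, ← pow_mul, mul_comm t p]

/-- A `p`-th power of a unit is related to `1`. -/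
lemma PthRel.pow_mul_self {x : A} (hx : IsUnit x) (t : ℕ) : PthRel p (x ^ (p * t)) 1 := by
  refine ⟨hx.unit ^ t, ?_⟩
  rw [one_mul, Units.val_pow_eq_pow_val, IsUnit.unit_spec, ← pow_mul, mul_comm t p]

end rel

section main

variable (p : ℕ) [hp : Fact p.Prime] (K : Type) [Field K] [NumberField K]

/-- The geometric sum `1 + z + ⋯ + z^(n-1)`. -/
def geomU {A : Type*} [CommRing A] (z : A) (n : ℕ) : A := ∑ i ∈ Finset.range n, z ^ i

lemma geomU_mul {A : Type*} [CommRing A] (z : A) (n : ℕ) : geomU z n * (z - 1) = z ^ n - 1 :=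
  geom_sum_mul z n

variable {p K}

lemma geomU_mod {A : Type*} [CommRing A] [IsDomain A] {z : A} (hz : IsPrimitiveRoot z p)
    (n : ℕ) : geomU z n = geomU z (n % p) := by
  have h1 : z - 1 ≠ 0 := sub_ne_zero.mpr (hz.ne_one hp.out.one_lt)
  apply mul_right_cancel₀ h1
  rw [geomU_mul, geomU_mul]
  congr 1
  conv_lhs => rw [← Nat.mod_add_div n p]
  rw [pow_add, pow_mul, hz.pow_eq_one, one_pow, mul_one]

lemma geomU_isUnit {A : Type*} [CommRing A] [IsDomain A] {z : A} (hz : IsPrimitiveRoot z p)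
    {n : ℕ} (hn : ¬ p ∣ n) : IsUnit (geomU z n) :=
  hz.geom_sum_isUnit hp.out.two_le ((Nat.Prime.coprime_iff_not_dvd hp.out).mpr hn).symm

lemma natCast_mul_mod_ne_zero {a k : ℕ} (ha : ¬ p ∣ a) (hk : ¬ p ∣ k) : ¬ p ∣ (a * k) % p := by
  rw [Nat.dvd_mod_iff (dvd_refl p)]
  intro h
  rcases (Nat.Prime.dvd_mul hp.out).mp h with h | h
  · exact ha h
  · exact hk h

omit hp in
lemma not_dvd_of_mem_Ico {a : ℕ} (ha : a ∈ Finset.Ico 1 p) : ¬ p ∣ a := by
  rw [Finset.mem_Ico] at ha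
  intro h
  have := Nat.le_of_dvd (by omega) h
  omega

lemma mem_Ico_of_not_dvd_mod {n : ℕ} (hn : ¬ p ∣ n % p) : n % p ∈ Finset.Ico 1 p := by
  rw [Finset.mem_Ico]
  refine ⟨?_, Nat.mod_lt _ hp.out.pos⟩
  rcases Nat.eq_zero_or_pos (n % p) with h | h
  · exact absurd (h ▸ dvd_zero p) hn
  · exact h

lemma eq_of_natCast_eq_of_mem_Ico {a b : ℕ} (ha : a ∈ Finset.Ico 1 p) (hb : b ∈ Finset.Ico 1 p)
    (h : (a : ZMod p) = (b : ZMod p)) : a = b := by
  rw [Finset.mem_Ico] at ha hb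
  rw [ZMod.natCast_eq_natCast_iff'] at h
  rwa [Nat.mod_eq_of_lt ha.2, Nat.mod_eq_of_lt hb.2] at h

variable [IsCyclotomicExtension {p} ℚ K] {ζ : K} (hζ : IsPrimitiveRoot ζ p)

omit [IsCyclotomicExtension {p} ℚ K] in
lemma sigmaO_toInteger (σ : K ≃ₐ[ℚ] K) (k : ℕ) (hk : σ ζ = ζ ^ k) :
    Fermat.Agent.H13.sigmaO K σ hζ.toInteger = hζ.toInteger ^ k := by
  apply RingOfIntegers.ext
  rw [Fermat.Agent.H13.coe_sigmaO]
  change σ ζ = ((hζ.toInteger ^ k : 𝓞 K) : K)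
  rw [hk]
  push_cast
  rfl

omit [IsCyclotomicExtension {p} ℚ K] in
include hζ in
lemma not_dvd_of_sigma (σ : K ≃ₐ[ℚ] K) (k : ℕ) (hk : σ ζ = ζ ^ k) : ¬ p ∣ k := by
  intro h
  obtain ⟨t, rfl⟩ := h
  rw [pow_mul, hζ.pow_eq_one, one_pow] at hk
  have : σ ζ = σ 1 := by rw [hk, map_one]
  exact hζ.ne_one hp.out.one_lt (σ.injective this)

omit [IsCyclotomicExtension {p} ℚ K] in
lemma sigmaO_geomU (σ : K ≃ₐ[ℚ] K) (k : ℕ) (hk : σ ζ = ζ ^ k) (a : ℕ) :
    Fermat.Agent.H13.sigmaO K σ (geomU hζ.toInteger a) * geomU hζ.toInteger k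
      = geomU hζ.toInteger ((a * k) % p) := by
  have hz := hζ.toInteger_isPrimitiveRoot
  have h1 : hζ.toInteger - 1 ≠ 0 := sub_ne_zero.mpr (hz.ne_one hp.out.one_lt)
  rw [← geomU_mod hz]
  apply mul_right_cancel₀ h1
  have e1 := congrArg (Fermat.Agent.H13.sigmaO K σ) (geomU_mul hζ.toInteger a)
  rw [map_mul, map_sub, map_sub, map_pow, map_one, sigmaO_toInteger hζ σ k hk] at e1
  rw [mul_assoc, geomU_mul, e1, geomU_mul, ← pow_mul, mul_comm k a]

omit [IsCyclotomicExtension {p} ℚ K] in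
/-- **Eigen-property of `η`**: for `σ ζ = ζ^k`, `σ η = η^(k²) · w^p` with `w` a unit. -/
theorem etaInt_eigen (hp5 : 5 ≤ p) (σ : K ≃ₐ[ℚ] K) (k : ℕ) (hk : σ ζ = ζ ^ k) :
    ∃ w : (𝓞 K)ˣ, Fermat.Agent.H13.sigmaO K σ (Fermat.Agent.H13.etaInt p hζ)
      = Fermat.Agent.H13.etaInt p hζ ^ (k ^ 2) * (w : 𝓞 K) ^ p := by
  have hz := hζ.toInteger_isPrimitiveRoot
  have hkp : ¬ p ∣ k := not_dvd_of_sigma hζ σ k hk
  have hk0 : (k : ZMod p) ≠ 0 := by
    rw [Ne, ZMod.natCast_eq_zero_iff]; exact hkp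
  -- an inverse of `k` modulo `p`
  obtain ⟨k', hk'⟩ : ∃ k' : ℕ, (k : ZMod p) * (k' : ZMod p) = 1 :=
    ⟨((k : ZMod p)⁻¹).val, by rw [ZMod.natCast_zmod_val, mul_inv_cancel₀ hk0]⟩
  have hk'p : ¬ p ∣ k' := by
    intro h
    rw [← ZMod.natCast_eq_zero_iff] at h
    rw [h, mul_zero] at hk'
    exact zero_ne_one hk'
  set m : ℕ → ℕ := fun a => a ^ (p - 3) % p with hm
  set z := hζ.toInteger with hzdef
  have hη : Fermat.Agent.H13.etaInt p hζ = ∏ a ∈ Finset.Ico 1 p, geomU z a ^ m a := rfl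
  -- Step 1
  have h1 : Fermat.Agent.H13.sigmaO K σ (Fermat.Agent.H13.etaInt p hζ)
      * geomU z k ^ (∑ a ∈ Finset.Ico 1 p, m a)
      = ∏ a ∈ Finset.Ico 1 p, geomU z ((a * k) % p) ^ m a := by
    rw [hη, map_prod, ← Finset.prod_pow_eq_pow_sum, ← Finset.prod_mul_distrib]
    refine Finset.prod_congr rfl fun a _ => ?_
    rw [map_pow, ← mul_pow, sigmaO_geomU hζ σ k hk]
  -- Step 2
  have h2 : p ∣ ∑ a ∈ Finset.Ico 1 p, m a := by
    rw [← ZMod.natCast_eq_zero_iff, Nat.cast_sum]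
    have hIco : Finset.Ico 1 p = Finset.Ioo 0 p := by
      ext a
      simp only [Finset.mem_Ico, Finset.mem_Ioo]
      omega
    rw [hIco]
    have := sum_Ioo_pow_eq_zero p (i := p - 3) (by omega) (by omega)
    rw [← this]
    refine Finset.sum_congr rfl fun a _ => ?_
    rw [hm]
    simp only
    rw [ZMod.natCast_mod, Nat.cast_pow]
  -- Step 3
  have h3 : PthRel p (Fermat.Agent.H13.sigmaO K σ (Fermat.Agent.H13.etaInt p hζ))
      (∏ a ∈ Finset.Ico 1 p, geomU z ((a * k) % p) ^ m a) := by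
    obtain ⟨T, hT⟩ := h2
    have hu : IsUnit (geomU z k) := geomU_isUnit hz hkp
    refine ⟨(hu.unit ^ T)⁻¹, ?_⟩
    rw [← h1, hT, mul_assoc]
    have : geomU z k ^ (p * T) * (((hu.unit ^ T)⁻¹ : (𝓞 K)ˣ) : 𝓞 K) ^ p = 1 := by
      have e : geomU z k ^ (p * T) = ((hu.unit ^ T : (𝓞 K)ˣ) : 𝓞 K) ^ p := by
        rw [Units.val_pow_eq_pow_val, IsUnit.unit_spec, ← pow_mul, mul_comm T p]
      rw [e, ← mul_pow, Units.mul_inv, one_pow]
    rw [this, mul_one]
  -- Step 4: reindexing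
  have h4 : ∏ a ∈ Finset.Ico 1 p, geomU z ((a * k) % p) ^ m a
      = ∏ b ∈ Finset.Ico 1 p, geomU z b ^ m ((b * k') % p) := by
    refine Finset.prod_nbij' (fun a => (a * k) % p) (fun b => (b * k') % p) ?_ ?_ ?_ ?_ ?_
    · intro a ha
      exact mem_Ico_of_not_dvd_mod (natCast_mul_mod_ne_zero (not_dvd_of_mem_Ico ha) hkp)
    · intro b hb
      exact mem_Ico_of_not_dvd_mod (natCast_mul_mod_ne_zero (not_dvd_of_mem_Ico hb) hk'p)
    · intro a ha
      refine eq_of_natCast_eq_of_mem_Ico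
        (mem_Ico_of_not_dvd_mod (natCast_mul_mod_ne_zero
          (not_dvd_of_mem_Ico (mem_Ico_of_not_dvd_mod
            (natCast_mul_mod_ne_zero (not_dvd_of_mem_Ico ha) hkp))) hk'p)) ha ?_
      rw [ZMod.natCast_mod, Nat.cast_mul, ZMod.natCast_mod, Nat.cast_mul, mul_assoc, hk',
        mul_one]
    · intro b hb
      refine eq_of_natCast_eq_of_mem_Ico
        (mem_Ico_of_not_dvd_mod (natCast_mul_mod_ne_zero
          (not_dvd_of_mem_Ico (mem_Ico_of_not_dvd_mod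
            (natCast_mul_mod_ne_zero (not_dvd_of_mem_Ico hb) hk'p))) hkp)) hb ?_
      rw [ZMod.natCast_mod, Nat.cast_mul, ZMod.natCast_mod, Nat.cast_mul, mul_assoc,
        mul_comm (k' : ZMod p), hk', mul_one]
    · intro a ha
      have hinv : ((a * k) % p * k') % p = a := by
        refine eq_of_natCast_eq_of_mem_Ico
          (mem_Ico_of_not_dvd_mod (natCast_mul_mod_ne_zero
            (not_dvd_of_mem_Ico (mem_Ico_of_not_dvd_mod
              (natCast_mul_mod_ne_zero (not_dvd_of_mem_Ico ha) hkp))) hk'p)) ha ?_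
        rw [ZMod.natCast_mod, Nat.cast_mul, ZMod.natCast_mod, Nat.cast_mul, mul_assoc, hk',
          mul_one]
      rw [hinv]
  -- Step 5: exponents
  have hkpow : (k' : ZMod p) ^ (p - 3) = (k : ZMod p) ^ 2 := by
    have e1 : (k : ZMod p) ^ (p - 1) = 1 := ZMod.pow_card_sub_one_eq_one hk0
    have e2 : p - 1 = (p - 3) + 2 := by omega
    calc (k' : ZMod p) ^ (p - 3) = (k' : ZMod p) ^ (p - 3) * (k : ZMod p) ^ (p - 1) := by
          rw [e1, mul_one]
      _ = ((k : ZMod p) * (k' : ZMod p)) ^ (p - 3) * (k : ZMod p) ^ 2 := by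
          rw [e2, pow_add, mul_pow]; ring
      _ = (k : ZMod p) ^ 2 := by rw [hk', one_pow, one_mul]
  have h5 : ∀ b ∈ Finset.Ico 1 p,
      PthRel p (geomU z b ^ m ((b * k') % p)) ((geomU z b ^ m b) ^ (k ^ 2)) := by
    intro b hb
    rw [← pow_mul]
    refine PthRel.pow_of_modEq (geomU_isUnit hz (not_dvd_of_mem_Ico hb)) ?_
    rw [← ZMod.natCast_eq_natCast_iff]
    rw [hm]
    simp only
    rw [ZMod.natCast_mod, Nat.cast_pow, ZMod.natCast_mod, Nat.cast_mul, mul_pow, hkpow,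
      Nat.cast_mul, ZMod.natCast_mod, Nat.cast_pow, Nat.cast_pow]
  -- Step 6: assemble
  have h6 : PthRel p (∏ b ∈ Finset.Ico 1 p, geomU z b ^ m ((b * k') % p))
      (Fermat.Agent.H13.etaInt p hζ ^ (k ^ 2)) := by
    rw [hη, ← Finset.prod_pow]
    exact PthRel.prod _ _ _ h5
  exact h3.trans (h4 ▸ h6)

end main

end Fermat.Agent.H90
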