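/-
P-ES / ES-D-A4 (helper90): Dedekind-Weber normal bases for filtered lattices over `K[X]`.

A free `K[X]`-module `M` of finite rank with an exhaustive, separated, increasing filtration
`fil : ℤ → Submodule K M` which is compatible with and saturated for multiplication by `X`
has a `K[X]`-basis `b` and degrees `d` with
`x ∈ fil m ↔ ∀ i, b.repr x i = 0 ∨ natDegree (b.repr x i) + d i ≤ m`.
(Birkhoff-Grothendieck on the projective line, in elementary form.)
-/
import Mathlib

set_option autoImplicit false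
set_option linter.unusedSectionVars false

noncomputable section

open Polynomial Module

namespace Fermat.Agent.H90.NB

variable {K : Type*} [Field K] {M : Type*} [AddCommGroup M] [Module K[X] M] [Module K M]
  [IsScalarTower K K[X] M]

/-- A degree filtration on a `K[X]`-module. -/
structure IsDegFiltration (fil : ℤ → Submodule K M) : Prop where
  mono : ∀ {m m' : ℤ}, m ≤ m' → fil m ≤ fil m'
  exhaust : ∀ x : M, ∃ m, x ∈ fil m
  sep : ∃ m₀, fil m₀ = ⊥
  X_mem : ∀ {m : ℤ} {x : M}, x ∈ fil m → (X : K[X]) • x ∈ fil (m + 1)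
  X_sat : ∀ {m : ℤ} {x : M}, (X : K[X]) • x ∈ fil (m + 1) → x ∈ fil m

theorem exists_basis_update {ι : Type*} [Fintype ι] [DecidableEq ι] (b : Basis ι K[X] M)
    (i₀ : ι) (q : ι → K[X]) (hq : IsUnit (q i₀)) :
    ∃ b' : Basis ι K[X] M, b' i₀ = ∑ i, q i • b i ∧ ∀ i, i ≠ i₀ → b' i = b i := by
  classical
  have hdet : b.det (Function.update (⇑b) i₀ (∑ i, q i • b i)) = q i₀ := by
    rw [AlternatingMap.map_update_sum]
    rw [Finset.sum_eq_single i₀]
    · rw [AlternatingMap.map_update_smul, Function.update_eq_self, Basis.det_self, smul_eq_mul,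
        mul_one]
    · intro j _ hj
      rw [AlternatingMap.map_update_smul, AlternatingMap.map_update_self _ _ (Ne.symm hj),
        smul_zero]
    · intro hi
      exact absurd (Finset.mem_univ _) hi
  have hunit : IsUnit (b.det (Function.update (⇑b) i₀ (∑ i, q i • b i))) := by
    rw [hdet]; exact hq
  obtain ⟨hli, hsp⟩ := (b.is_basis_iff_det).mpr hunit
  refine ⟨Basis.mk hli hsp.ge, ?_, ?_⟩
  · rw [Basis.mk_apply, Function.update_self]
  · intro i hi
    rw [Basis.mk_apply, Function.update_of_ne hi]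

namespace IsDegFiltration

variable {fil : ℤ → Submodule K M} (h : IsDegFiltration fil)

include h

theorem X_pow_mem {m : ℤ} {x : M} (hx : x ∈ fil m) (k : ℕ) :
    (X ^ k : K[X]) • x ∈ fil (m + k) := by
  induction k with
  | zero => simpa using hx
  | succ k ih =>
    have := h.X_mem ih
    rw [← mul_smul, ← pow_succ'] at this
    have e : m + (k : ℤ) + 1 = m + ((k + 1 : ℕ) : ℤ) := by push_cast; ring
    rwa [e] at this

theorem X_pow_sat {m : ℤ} {x : M} (k : ℕ) (hx : (X ^ k : K[X]) • x ∈ fil (m + k)) :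
    x ∈ fil m := by
  induction k generalizing m with
  | zero => simpa using hx
  | succ k ih =>
    apply ih
    apply h.X_sat
    rw [← mul_smul, ← pow_succ']
    have e : m + (k : ℤ) + 1 = m + ((k + 1 : ℕ) : ℤ) := by push_cast; ring
    rwa [e]

theorem C_smul_mem {m : ℤ} {x : M} (hx : x ∈ fil m) (a : K) :
    (C a : K[X]) • x ∈ fil m := by
  have : (C a : K[X]) • x = a • x := by
    rw [← Polynomial.algebraMap_eq, algebraMap_smul]
  rw [this]
  exact (fil m).smul_mem a hx

theorem smul_mem {m : ℤ} {x : M} (hx : x ∈ fil m) (p : K[X]) :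
    p • x ∈ fil (m + p.natDegree) := by
  have hsum : p • x = ∑ j ∈ Finset.range (p.natDegree + 1), (C (p.coeff j) * X ^ j) • x := by
    conv_lhs => rw [p.as_sum_range_C_mul_X_pow, Finset.sum_smul]
  rw [hsum]
  refine Submodule.sum_mem _ fun j hj => ?_
  rw [mul_smul]
  apply h.C_smul_mem
  have hj' : j ≤ p.natDegree := by
    have := Finset.mem_range.mp hj
    omega
  exact h.mono (by omega) (h.X_pow_mem hx j)

theorem smul_mem_of_le {m m' : ℤ} {x : M} (hx : x ∈ fil m) (p : K[X])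
    (hp : m + p.natDegree ≤ m') : p • x ∈ fil m' :=
  h.mono hp (h.smul_mem hx p)

theorem eq_zero_of_mem_of_le {m₀ : ℤ} (h₀ : fil m₀ = ⊥) {m : ℤ} (hm : m ≤ m₀) {x : M}
    (hx : x ∈ fil m) : x = 0 := by
  have := h.mono hm hx
  rw [h₀] at this
  simpa using this

/-- the degree of an element -/
def deg (_h : IsDegFiltration fil) (x : M) : ℤ := sInf {m : ℤ | x ∈ fil m}

theorem deg_spec {x : M} (hx : x ≠ 0) : x ∈ fil (h.deg x) ∧ ∀ m, x ∈ fil m → h.deg x ≤ m := by
  obtain ⟨m₀, h₀⟩ := h.sep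
  have hne : {m : ℤ | x ∈ fil m}.Nonempty := h.exhaust x
  have hbdd : BddBelow {m : ℤ | x ∈ fil m} := by
    refine ⟨m₀, fun m hm => ?_⟩
    by_contra hlt
    push Not at hlt
    exact hx (h.eq_zero_of_mem_of_le h₀ hlt.le hm)
  refine ⟨Int.csInf_mem hne hbdd, fun m hm => csInf_le hbdd hm⟩

theorem mem_iff_deg_le {x : M} (hx : x ≠ 0) {m : ℤ} : x ∈ fil m ↔ h.deg x ≤ m :=
  ⟨fun hm => (h.deg_spec hx).2 m hm, fun hm => h.mono hm (h.deg_spec hx).1⟩

theorem lt_deg {m₀ : ℤ} (h₀ : fil m₀ = ⊥) {x : M} (hx : x ≠ 0) : m₀ < h.deg x := by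
  by_contra hle
  push Not at hle
  exact hx (h.eq_zero_of_mem_of_le h₀ hle (h.deg_spec hx).1)

theorem sum_smul_mem {ι : Type*} [Fintype ι] (b : ι → M) (c : ι → K[X]) (m : ℤ)
    (hb : ∀ i, b i ≠ 0)
    (hc : ∀ i, c i ≠ 0 → ((c i).natDegree : ℤ) + h.deg (b i) ≤ m) :
    (∑ i, c i • b i) ∈ fil m := by
  refine Submodule.sum_mem _ fun i _ => ?_
  by_cases hci : c i = 0
  · rw [hci, zero_smul]; exact Submodule.zero_mem _
  · have := h.smul_mem_of_le (h.deg_spec (hb i)).1 (c i) (m' := m)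
      (by have := hc i hci; omega)
    exact this

/-- A basis is reduced if the degree of a combination is the maximum of the degrees of
its terms. -/
def IsReduced {ι : Type*} [Fintype ι] (h : IsDegFiltration fil) (b : Basis ι K[X] M) : Prop :=
  ∀ (c : ι → K[X]) (m : ℤ), (∑ i, c i • b i) ∈ fil m →
    ∀ i, c i ≠ 0 → ((c i).natDegree : ℤ) + h.deg (b i) ≤ m

/-- the measure that decreases in the reduction step -/
def measure {ι : Type*} [Fintype ι] (h : IsDegFiltration fil) (m₀ : ℤ) (b : Basis ι K[X] M) : ℕ :=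
  ∑ i, (h.deg (b i) - m₀).toNat

theorem exists_smaller_of_not_isReduced {ι : Type*} [Fintype ι] [DecidableEq ι]
    {m₀ : ℤ} (h₀ : fil m₀ = ⊥) (b : Basis ι K[X] M) (hb : ¬ h.IsReduced b) :
    ∃ b' : Basis ι K[X] M, h.measure m₀ b' < h.measure m₀ b := by
  classical
  unfold IsReduced at hb
  push Not at hb
  obtain ⟨c, m, hx, i₁, hci₁, hlt⟩ := hb
  have hbne : ∀ i, b i ≠ 0 := fun i => b.ne_zero i
  have hsupp_ne : (Finset.univ.filter (fun i => c i ≠ 0)).Nonempty :=
    ⟨i₁, by simp [hci₁]⟩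
  obtain ⟨imax, himax, hmax⟩ := Finset.exists_max_image (Finset.univ.filter (fun i => c i ≠ 0))
    (fun i => ((c i).natDegree : ℤ) + h.deg (b i)) hsupp_ne
  obtain ⟨M₁, hM₁⟩ : ∃ M₁ : ℤ, M₁ = ((c imax).natDegree : ℤ) + h.deg (b imax) := ⟨_, rfl⟩
  have himax' : c imax ≠ 0 := by simpa using himax
  have hmax' : ∀ i, c i ≠ 0 → ((c i).natDegree : ℤ) + h.deg (b i) ≤ M₁ := by
    intro i hi
    rw [hM₁]
    exact hmax i (by simp [hi])
  have hmM₁ : m < M₁ := lt_of_lt_of_le hlt (hmax' i₁ hci₁)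
  obtain ⟨I, hImem⟩ : ∃ I : Finset ι, ∀ i, i ∈ I ↔
      (c i ≠ 0 ∧ ((c i).natDegree : ℤ) + h.deg (b i) = M₁) :=
    ⟨Finset.univ.filter (fun i => c i ≠ 0 ∧ ((c i).natDegree : ℤ) + h.deg (b i) = M₁),
      fun i => by simp⟩
  have hI_ne : I.Nonempty := ⟨imax, (hImem imax).mpr ⟨himax', hM₁.symm⟩⟩
  obtain ⟨i₀, hi₀, hδmax⟩ := Finset.exists_max_image I (fun i => h.deg (b i)) hI_ne
  have hi₀' := (hImem i₀).mp hi₀
  obtain ⟨k, hk⟩ : ∃ k : ℕ, k = (c i₀).natDegree := ⟨_, rfl⟩
  have hM₁k : M₁ = (k : ℤ) + h.deg (b i₀) := by rw [hk, hi₀'.2]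
  have hIdeg : ∀ i ∈ I, k ≤ (c i).natDegree := by
    intro i hi
    have h1 : h.deg (b i) ≤ h.deg (b i₀) := hδmax i hi
    have h2 := ((hImem i).mp hi).2
    omega
  -- the new basis vector
  obtain ⟨q, hq⟩ : ∃ q : ι → K[X], ∀ i, q i =
      if i ∈ I then C (c i).leadingCoeff * X ^ ((c i).natDegree - k) else 0 := ⟨_, fun _ => rfl⟩
  have hqi₀ : q i₀ = C (c i₀).leadingCoeff := by
    rw [hq, if_pos hi₀, hk, Nat.sub_self, pow_zero, mul_one]
  have hqunit : IsUnit (q i₀) := by
    rw [hqi₀]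
    exact Polynomial.isUnit_C.mpr (isUnit_iff_ne_zero.mpr (leadingCoeff_ne_zero.mpr hi₀'.1))
  obtain ⟨b', hb'₀, hb'⟩ := exists_basis_update b i₀ q hqunit
  -- remainder
  obtain ⟨r, hr⟩ : ∃ r : ι → K[X], ∀ i, r i = if i ∈ I then (c i).eraseLead else c i :=
    ⟨_, fun _ => rfl⟩
  have hdecomp : ∀ i, c i = r i + (X ^ k : K[X]) * q i := by
    intro i
    by_cases hi : i ∈ I
    · rw [hr, hq, if_pos hi, if_pos hi]
      have hki := hIdeg i hi
      have : (X ^ k : K[X]) * (C (c i).leadingCoeff * X ^ ((c i).natDegree - k)) =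
          C (c i).leadingCoeff * X ^ (c i).natDegree := by
        rw [mul_comm, mul_assoc, ← pow_add, Nat.sub_add_cancel hki]
      rw [this, eraseLead_add_C_mul_X_pow]
    · rw [hr, hq, if_neg hi, if_neg hi, mul_zero, add_zero]
  have hrmem : (∑ i, r i • b i) ∈ fil (M₁ - 1) := by
    apply h.sum_smul_mem (fun i => b i) r (M₁ - 1) hbne
    intro i hri
    by_cases hi : i ∈ I
    · rw [hr, if_pos hi] at hri ⊢
      have h3 := ((hImem i).mp hi).2
      rcases eraseLead_natDegree_lt_or_eraseLead_eq_zero (c i) with hlt' | h0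
      · omega
      · exact absurd h0 hri
    · rw [hr, if_neg hi] at hri ⊢
      have h1 := hmax' i hri
      have h2 : ((c i).natDegree : ℤ) + h.deg (b i) ≠ M₁ := fun heq => hi ((hImem i).mpr ⟨hri, heq⟩)
      omega
  have hxs : (∑ i, c i • b i) = (∑ i, r i • b i) + (X ^ k : K[X]) • (∑ i, q i • b i) := by
    rw [Finset.smul_sum, ← Finset.sum_add_distrib]
    refine Finset.sum_congr rfl fun i _ => ?_
    rw [← mul_smul, ← add_smul, ← hdecomp i]
  have hXk : (X ^ k : K[X]) • (∑ i, q i • b i) ∈ fil (M₁ - 1) := by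
    have h1 : (∑ i, c i • b i) ∈ fil (M₁ - 1) := h.mono (by omega) hx
    have h2 : (X ^ k : K[X]) • (∑ i, q i • b i) = (∑ i, c i • b i) - (∑ i, r i • b i) := by
      rw [hxs]; abel
    rw [h2]
    exact Submodule.sub_mem _ h1 hrmem
  have hs' : (∑ i, q i • b i) ∈ fil (h.deg (b i₀) - 1) := by
    apply h.X_pow_sat k
    have : h.deg (b i₀) - 1 + (k : ℤ) = M₁ - 1 := by rw [hM₁k]; ring
    rw [this]
    exact hXk
  have hb'i₀_deg : h.deg (b' i₀) ≤ h.deg (b i₀) - 1 := by
    rw [← h.mem_iff_deg_le (b'.ne_zero i₀), hb'₀]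
    exact hs'
  have hb'i₀_lt : m₀ < h.deg (b' i₀) := h.lt_deg h₀ (b'.ne_zero i₀)
  refine ⟨b', ?_⟩
  unfold measure
  apply Finset.sum_lt_sum
  · intro i _
    by_cases hi : i = i₀
    · subst hi
      apply Int.toNat_le_toNat
      omega
    · rw [hb' i hi]
  · refine ⟨i₀, Finset.mem_univ _, ?_⟩
    omega

theorem exists_isReduced {ι : Type*} [Fintype ι] [DecidableEq ι] (b₀ : Basis ι K[X] M) :
    ∃ b : Basis ι K[X] M, h.IsReduced b := by
  obtain ⟨m₀, h₀⟩ := h.sep
  suffices H : ∀ N : ℕ, ∀ b : Basis ι K[X] M, h.measure m₀ b = N →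
      ∃ b' : Basis ι K[X] M, h.IsReduced b' from H _ b₀ rfl
  intro N
  induction N using Nat.strong_induction_on with
  | _ N ih =>
    intro b hb
    by_cases hred : h.IsReduced b
    · exact ⟨b, hred⟩
    · obtain ⟨b', hb'⟩ := h.exists_smaller_of_not_isReduced h₀ b hred
      exact ih _ (hb ▸ hb') b' rfl

/-- **Normal basis theorem** (Dedekind-Weber). -/
theorem exists_normal_basis {ι : Type*} [Fintype ι] [DecidableEq ι] (b₀ : Basis ι K[X] M) :
    ∃ (b : Basis ι K[X] M) (d : ι → ℤ), ∀ (m : ℤ) (x : M),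
      x ∈ fil m ↔ ∀ i, b.repr x i = 0 ∨ ((b.repr x i).natDegree : ℤ) + d i ≤ m := by
  obtain ⟨b, hb⟩ := h.exists_isReduced b₀
  refine ⟨b, fun i => h.deg (b i), fun m x => ⟨fun hx i => ?_, fun hx => ?_⟩⟩
  · by_cases hi : b.repr x i = 0
    · exact Or.inl hi
    · refine Or.inr (hb (fun i => b.repr x i) m ?_ i hi)
      rw [b.sum_repr x]
      exact hx
  · rw [← b.sum_repr x]
    apply h.sum_smul_mem (fun i => b i) (fun i => b.repr x i) m (fun i => b.ne_zero i)
    intro i hi
    rcases hx i with h0 | hle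
    · exact absurd h0 hi
    · exact hle

end IsDegFiltration

/-- Dimension of the pieces of a filtration with a normal basis. -/
theorem finrank_fil_eq {ι : Type*} [Fintype ι] (b : Basis ι K[X] M) (d : ι → ℤ)
    (fil : ℤ → Submodule K M)
    (hbd : ∀ (m : ℤ) (x : M),
      x ∈ fil m ↔ ∀ i, b.repr x i = 0 ∨ ((b.repr x i).natDegree : ℤ) + d i ≤ m) (m : ℤ) :
    Module.Finite K (fil m) ∧ Module.finrank K (fil m) = ∑ i, (m - d i + 1).toNat := by
  classical
  have key : ∀ (p : K[X]) (i : ι),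
      (p = 0 ∨ (p.natDegree : ℤ) + d i ≤ m) ↔ p ∈ degreeLT K ((m - d i + 1).toNat) := by
    intro p i
    rw [Polynomial.mem_degreeLT]
    by_cases hp : p = 0
    · subst hp
      simp only [true_or, degree_zero, true_iff]
      exact WithBot.bot_lt_coe _
    · rw [← Polynomial.natDegree_lt_iff_degree_lt hp]
      simp only [hp, false_or]
      omega
  have hsmul : ∀ (a : K) (x : M) (i : ι), b.repr (a • x) i = a • b.repr x i := by
    intro a x i
    have : a • x = (C a : K[X]) • x := by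
      rw [← Polynomial.algebraMap_eq, algebraMap_smul]
    rw [this, map_smul, Finsupp.smul_apply, smul_eq_mul, Polynomial.smul_eq_C_mul]
  let f : fil m →ₗ[K] (∀ i, degreeLT K ((m - d i + 1).toNat)) :=
    { toFun := fun x i => ⟨b.repr (x : M) i, (key _ i).mp ((hbd m x).mp x.2 i)⟩
      map_add' := fun x y => by
        funext i
        apply Subtype.ext
        simp
      map_smul' := fun a x => by
        funext i
        apply Subtype.ext
        simp [hsmul] }
  have hf_apply : ∀ (x : fil m) (i : ι), ((f x i : degreeLT K ((m - d i + 1).toNat)) : K[X]) =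
      b.repr (x : M) i := fun _ _ => rfl
  have hinj : Function.Injective f := by
    intro x y hxy
    apply Subtype.ext
    apply b.repr.injective
    ext i : 1
    have := congrArg (fun g => ((g i : degreeLT K ((m - d i + 1).toNat)) : K[X])) hxy
    simpa [hf_apply] using this
  have hsurj : Function.Surjective f := by
    intro g
    have hx : (∑ i, ((g i : degreeLT K ((m - d i + 1).toNat)) : K[X]) • b i) ∈ fil m := by
      rw [hbd]
      intro i
      rw [b.repr_sum_self]
      exact (key _ i).mpr (g i).2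
    refine ⟨⟨_, hx⟩, ?_⟩
    funext i
    apply Subtype.ext
    rw [hf_apply]
    simp only
    rw [b.repr_sum_self]
  let e : fil m ≃ₗ[K] (∀ i, degreeLT K ((m - d i + 1).toNat)) :=
    LinearEquiv.ofBijective f ⟨hinj, hsurj⟩
  have : ∀ i, Module.Finite K (degreeLT K ((m - d i + 1).toNat)) := fun i =>
    Module.Finite.equiv (degreeLTEquiv K _).symm
  refine ⟨Module.Finite.equiv e.symm, ?_⟩
  rw [e.finrank_eq, Module.finrank_pi_fintype]
  refine Finset.sum_congr rfl fun i _ => ?_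
  rw [(degreeLTEquiv K _).finrank_eq, Module.finrank_fin_fun]

end Fermat.Agent.H90.NB

end
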