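/-
P-ES / ES-D-A4 (helper90): the lattice count (LC) `Fermat.Agent.H56.RH.LatticeCountStatement`,
deduced from the Dedekind-Weber normal basis theorem of `Fermat.Agent.H90.NormalBasis`.
-/
import Mathlib
import Fermat.Agent.H90.NormalBasis
import Fermat.Agent.H56.RH.Interfaces

set_option autoImplicit false
set_option linter.unusedSectionVars false

noncomputable section

open Polynomial Module WithZero

namespace Fermat.Agent.H90.LC

open Fermat.Agent.H56.RH

variable {K : Type} [Field K]

/-! ### The two subalgebras -/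

theorem mem_polySub_iff (r : RatFunc K) :
    r ∈ polySub K ↔ ∃ p : K[X], algebraMap K[X] (RatFunc K) p = r := by
  unfold polySub
  rw [AlgHom.mem_range]
  rfl

theorem algebraMap_mem_polySub (p : K[X]) : algebraMap K[X] (RatFunc K) p ∈ polySub K :=
  (mem_polySub_iff _).mpr ⟨p, rfl⟩

theorem mem_invPolySub_iff (r : RatFunc K) :
    r ∈ invPolySub K ↔ ∃ p : K[X], Polynomial.aeval ((RatFunc.X : RatFunc K)⁻¹) p = r := by
  unfold invPolySub
  rw [AlgHom.mem_range]

theorem X_inv_mem_invPolySub : (RatFunc.X : RatFunc K)⁻¹ ∈ invPolySub K :=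
  (mem_invPolySub_iff _).mpr ⟨Polynomial.X, by simp⟩

theorem X_inv_pow_mem_invPolySub (k : ℕ) : ((RatFunc.X : RatFunc K)⁻¹) ^ k ∈ invPolySub K :=
  (invPolySub K).pow_mem X_inv_mem_invPolySub k

theorem X_zpow_neg_mem_invPolySub (k : ℕ) : (RatFunc.X : RatFunc K) ^ (-(k : ℤ)) ∈ invPolySub K := by
  rw [zpow_neg, zpow_natCast, ← inv_pow]
  exact X_inv_pow_mem_invPolySub k

theorem X_zpow_mem_invPolySub {e : ℤ} (he : e ≤ 0) : (RatFunc.X : RatFunc K) ^ e ∈ invPolySub K := by
  obtain ⟨k, hk⟩ := Int.exists_eq_neg_ofNat he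
  rw [hk]
  exact X_zpow_neg_mem_invPolySub k

theorem algebraMap_C_mem_invPolySub (c : K) :
    algebraMap K[X] (RatFunc K) (Polynomial.C c) ∈ invPolySub K := by
  have : algebraMap K[X] (RatFunc K) (Polynomial.C c) = algebraMap K (RatFunc K) c := by
    rw [← Polynomial.algebraMap_eq, ← IsScalarTower.algebraMap_apply]
  rw [this]
  exact (invPolySub K).algebraMap_mem c

/-- `X^(-m) p(X) ∈ K[1/X]` if `deg p ≤ m`. -/
theorem zpow_mul_algebraMap_mem_invPolySub (p : K[X]) (m : ℤ)
    (h : p = 0 ∨ (p.natDegree : ℤ) ≤ m) :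
    (RatFunc.X : RatFunc K) ^ (-m) * algebraMap K[X] (RatFunc K) p ∈ invPolySub K := by
  rcases eq_or_ne p 0 with rfl | hp
  · simp only [map_zero, mul_zero]
    exact (invPolySub K).zero_mem
  · have hm : (p.natDegree : ℤ) ≤ m := h.resolve_left hp
    have hX : (RatFunc.X : RatFunc K) ≠ 0 := RatFunc.X_ne_zero
    have hsum : (RatFunc.X : RatFunc K) ^ (-m) * algebraMap K[X] (RatFunc K) p =
        ∑ j ∈ Finset.range (p.natDegree + 1), (RatFunc.X : RatFunc K) ^ (-m) *
          algebraMap K[X] (RatFunc K) (Polynomial.C (p.coeff j) * Polynomial.X ^ j) := by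
      conv_lhs => rw [p.as_sum_range_C_mul_X_pow]
      rw [map_sum, Finset.mul_sum]
    rw [hsum]
    refine (invPolySub K).sum_mem fun j hj => ?_
    have hj' : j ≤ p.natDegree := by
      have := Finset.mem_range.mp hj
      omega
    rw [map_mul, map_pow, RatFunc.algebraMap_X]
    have : (RatFunc.X : RatFunc K) ^ (-m) * (algebraMap K[X] (RatFunc K) (Polynomial.C (p.coeff j)) *
        RatFunc.X ^ j) = algebraMap K[X] (RatFunc K) (Polynomial.C (p.coeff j)) *
        (RatFunc.X : RatFunc K) ^ (-m + (j : ℤ)) := by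
      rw [zpow_add₀ hX, zpow_natCast]
      ring
    rw [this]
    exact (invPolySub K).mul_mem (algebraMap_C_mem_invPolySub _) (X_zpow_mem_invPolySub (by omega))

section Valuation

variable [DecidableEq (RatFunc K)]

theorem infty_le_one_of_mem_invPolySub {r : RatFunc K} (hr : r ∈ invPolySub K) :
    RatFunc.inftyValuation K r ≤ 1 := by
  obtain ⟨q, rfl⟩ := (mem_invPolySub_iff r).mp hr
  rw [Polynomial.aeval_eq_sum_range]
  apply Valuation.map_sum_le
  intro j _
  rw [Algebra.smul_def, map_mul, map_pow, map_inv₀, RatFunc.inftyValuation.X]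
  have h1 : RatFunc.inftyValuation K (algebraMap K (RatFunc K) (q.coeff j)) ≤ 1 := by
    by_cases hc : q.coeff j = 0
    · rw [hc, map_zero, map_zero]
      exact zero_le_one
    · have : algebraMap K (RatFunc K) (q.coeff j) = RatFunc.C (q.coeff j) := rfl
      rw [this, RatFunc.inftyValuation.C K hc]
  have h2 : ((exp (1 : ℤ) : ℤᵐ⁰)⁻¹) ^ j ≤ 1 := by
    apply pow_le_one₀ zero_le
    rw [← exp_neg]
    rw [← exp_zero]
    exact exp_le_exp.mpr (by norm_num)
  calc RatFunc.inftyValuation K (algebraMap K (RatFunc K) (q.coeff j)) * ((exp (1 : ℤ))⁻¹) ^ j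
      ≤ 1 * 1 := mul_le_mul' h1 h2
    _ = 1 := one_mul 1

theorem infty_zpow_mul_algebraMap (p : K[X]) (hp : p ≠ 0) (m : ℤ) :
    RatFunc.inftyValuation K ((RatFunc.X : RatFunc K) ^ (-m) * algebraMap K[X] (RatFunc K) p) =
      exp (-m + (p.natDegree : ℤ)) := by
  rw [map_mul, RatFunc.inftyValuation.X_zpow, RatFunc.inftyValuation_apply,
    RatFunc.inftyValuation.polynomial K hp, ← exp_add]

/-- `X^(-m) p(X) ∈ K[1/X]` implies `deg p ≤ m`. -/
theorem natDegree_le_of_mem_invPolySub (p : K[X]) (hp : p ≠ 0) (m : ℤ)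
    (h : (RatFunc.X : RatFunc K) ^ (-m) * algebraMap K[X] (RatFunc K) p ∈ invPolySub K) :
    (p.natDegree : ℤ) ≤ m := by
  have h1 := infty_le_one_of_mem_invPolySub h
  rw [infty_zpow_mul_algebraMap p hp, ← exp_zero, exp_le_exp] at h1
  omega

theorem val_det_le_one {Γ : Type*} [LinearOrderedCommGroupWithZero Γ] {E : Type*} [Field E]
    (v : Valuation E Γ) {n : ℕ}
    (A : Matrix (Fin n) (Fin n) E) (h : ∀ i j, v (A i j) ≤ 1) : v A.det ≤ 1 := by
  rw [Matrix.det_apply]
  apply Valuation.map_sum_le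
  intro σ _
  have hs : v ((Equiv.Perm.sign σ : ℤˣ) • ∏ i, A (σ i) i) = v (∏ i, A (σ i) i) := by
    rcases Int.units_eq_one_or (Equiv.Perm.sign σ) with h1 | h1
    · rw [h1, one_smul]
    · rw [h1, Units.neg_smul, one_smul, Valuation.map_neg]
  rw [hs, map_prod]
  exact Finset.prod_le_one' fun i _ => h _ _

end Valuation

/-! ### The coordinate lattice and its filtration -/

section Lattice

variable {V : Type} [AddCommGroup V] [Module (RatFunc K) V] [Module K V]
  [IsScalarTower K (RatFunc K) V] {n : ℕ}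

theorem algebraMap_smul_poly (a : K) (p : K[X]) :
    algebraMap K[X] (RatFunc K) (a • p) = a • algebraMap K[X] (RatFunc K) p := by
  rw [Algebra.smul_def, Algebra.smul_def, map_mul, ← IsScalarTower.algebraMap_apply]

/-- polynomial coordinates to vectors -/
def toV (u : Basis (Fin n) (RatFunc K) V) : (Fin n → K[X]) →ₗ[K] V where
  toFun c := ∑ i, algebraMap K[X] (RatFunc K) (c i) • u i
  map_add' := by
    intro c c'
    simp only [Pi.add_apply, map_add, add_smul, Finset.sum_add_distrib]
  map_smul' := by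
    intro a c
    simp only [Pi.smul_apply, RingHom.id_apply, Finset.smul_sum]
    refine Finset.sum_congr rfl fun i _ => ?_
    rw [algebraMap_smul_poly, smul_assoc]

theorem toV_apply (u : Basis (Fin n) (RatFunc K) V) (c : Fin n → K[X]) :
    toV u c = ∑ i, algebraMap K[X] (RatFunc K) (c i) • u i := rfl

theorem repr_toV (u : Basis (Fin n) (RatFunc K) V) (c : Fin n → K[X]) (i : Fin n) :
    u.repr (toV u c) i = algebraMap K[X] (RatFunc K) (c i) := by
  rw [toV_apply, u.repr_sum_self]

theorem toV_injective (u : Basis (Fin n) (RatFunc K) V) : Function.Injective (toV u) := by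
  intro c c' h
  funext i
  have := congrArg (fun f => u.repr f i) h
  simp only [repr_toV] at this
  exact (IsFractionRing.injective K[X] (RatFunc K)) this

theorem repr'_toV (u u' : Basis (Fin n) (RatFunc K) V) (c : Fin n → K[X]) (j : Fin n) :
    u'.repr (toV u c) j = ∑ i, algebraMap K[X] (RatFunc K) (c i) * u'.repr (u i) j := by
  rw [toV_apply, map_sum, Finsupp.coe_finsetSum, Finset.sum_apply]
  refine Finset.sum_congr rfl fun i _ => ?_
  rw [map_smul, Finsupp.smul_apply, smul_eq_mul]

theorem toV_smul (u : Basis (Fin n) (RatFunc K) V) (p : K[X]) (c : Fin n → K[X]) :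
    toV u (p • c) = algebraMap K[X] (RatFunc K) p • toV u c := by
  rw [toV_apply, toV_apply, Finset.smul_sum]
  refine Finset.sum_congr rfl fun i _ => ?_
  rw [Pi.smul_apply, smul_eq_mul, map_mul, mul_smul]

/-- The filtration on polynomial coordinate vectors. -/
def fil (u u' : Basis (Fin n) (RatFunc K) V) (m : ℤ) : Submodule K (Fin n → K[X]) :=
  (latticeSpace u u' m).comap (toV u)

theorem mem_latticeSpace_iff (u u' : Basis (Fin n) (RatFunc K) V) (m : ℤ) (f : V) :
    f ∈ latticeSpace u u' m ↔ (∀ i, u.repr f i ∈ polySub K) ∧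
      (∀ j, (RatFunc.X : RatFunc K) ^ (-m) * u'.repr f j ∈ invPolySub K) := Iff.rfl

theorem mem_fil_iff (u u' : Basis (Fin n) (RatFunc K) V) (m : ℤ) (c : Fin n → K[X]) :
    c ∈ fil u u' m ↔
      ∀ j, (RatFunc.X : RatFunc K) ^ (-m) * u'.repr (toV u c) j ∈ invPolySub K := by
  unfold fil
  rw [Submodule.mem_comap, mem_latticeSpace_iff]
  constructor
  · exact fun h => h.2
  · intro h
    refine ⟨fun i => ?_, h⟩
    rw [repr_toV]
    exact algebraMap_mem_polySub _

theorem map_fil (u u' : Basis (Fin n) (RatFunc K) V) (m : ℤ) :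
    (fil u u' m).map (toV u) = latticeSpace u u' m := by
  unfold fil
  rw [Submodule.map_comap_eq, inf_eq_right]
  intro f hf
  rw [LinearMap.mem_range]
  have h1 := ((mem_latticeSpace_iff u u' m f).mp hf).1
  choose c hc using fun i => (mem_polySub_iff _).mp (h1 i)
  refine ⟨c, ?_⟩
  apply u.repr.injective
  ext i
  rw [repr_toV, hc]

theorem X_zpow_shift (m : ℤ) (r : RatFunc K) :
    (RatFunc.X : RatFunc K) ^ (-(m + 1)) * (RatFunc.X * r) = RatFunc.X ^ (-m) * r := by
  have hX : (RatFunc.X : RatFunc K) ≠ 0 := RatFunc.X_ne_zero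
  have : (-(m + 1) : ℤ) = -m + (-1) := by ring
  rw [this, zpow_add₀ hX, zpow_neg_one]
  field_simp

theorem X_smul_mem_fil_iff (u u' : Basis (Fin n) (RatFunc K) V) (m : ℤ) (c : Fin n → K[X]) :
    (Polynomial.X : K[X]) • c ∈ fil u u' (m + 1) ↔ c ∈ fil u u' m := by
  rw [mem_fil_iff, mem_fil_iff]
  refine forall_congr' fun j => ?_
  rw [toV_smul, map_smul, Finsupp.smul_apply, smul_eq_mul, RatFunc.algebraMap_X, X_zpow_shift]

theorem fil_mono (u u' : Basis (Fin n) (RatFunc K) V) {m m' : ℤ} (h : m ≤ m') :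
    fil u u' m ≤ fil u u' m' := by
  intro c hc
  rw [mem_fil_iff] at hc ⊢
  intro j
  have hX : (RatFunc.X : RatFunc K) ≠ 0 := RatFunc.X_ne_zero
  have : (RatFunc.X : RatFunc K) ^ (-m') * u'.repr (toV u c) j =
      (RatFunc.X : RatFunc K) ^ (-(m' - m)) * ((RatFunc.X : RatFunc K) ^ (-m) *
        u'.repr (toV u c) j) := by
    rw [← mul_assoc, ← zpow_add₀ hX]
    congr 2
    ring
  rw [this]
  exact (invPolySub K).mul_mem (X_zpow_mem_invPolySub (by omega)) (hc j)

theorem fil_exhaust (u u' : Basis (Fin n) (RatFunc K) V)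
    (h2 : ∀ i, ∃ k : ℕ, ∀ j, ((RatFunc.X : RatFunc K)⁻¹) ^ k * u'.repr (u i) j ∈ invPolySub K)
    (c : Fin n → K[X]) : ∃ m, c ∈ fil u u' m := by
  choose k hk using h2
  refine ⟨∑ i, ((k i : ℤ) + (c i).natDegree), ?_⟩
  rw [mem_fil_iff]
  intro j
  rw [repr'_toV, Finset.mul_sum]
  refine (invPolySub K).sum_mem fun i _ => ?_
  have hX : (RatFunc.X : RatFunc K) ≠ 0 := RatFunc.X_ne_zero
  set m : ℤ := ∑ i, ((k i : ℤ) + (c i).natDegree) with hm
  have hle : (k i : ℤ) + (c i).natDegree ≤ m := by
    rw [hm]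
    exact Finset.single_le_sum (f := fun i => ((k i : ℤ) + (c i).natDegree))
      (fun i _ => by positivity) (Finset.mem_univ i)
  have : (RatFunc.X : RatFunc K) ^ (-m) * (algebraMap K[X] (RatFunc K) (c i) * u'.repr (u i) j) =
      ((RatFunc.X : RatFunc K) ^ (-(m - k i)) * algebraMap K[X] (RatFunc K) (c i)) *
        (((RatFunc.X : RatFunc K)⁻¹) ^ (k i) * u'.repr (u i) j) := by
    have e1 : ((RatFunc.X : RatFunc K)⁻¹) ^ (k i) = (RatFunc.X : RatFunc K) ^ (-(k i : ℤ)) := by
      rw [zpow_neg, zpow_natCast, inv_pow]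
    have e2 : (RatFunc.X : RatFunc K) ^ (-m) =
        (RatFunc.X : RatFunc K) ^ (-(m - k i)) * (RatFunc.X : RatFunc K) ^ (-(k i : ℤ)) := by
      rw [← zpow_add₀ hX]
      congr 1
      ring
    rw [e1, e2]
    ring
  rw [this]
  refine (invPolySub K).mul_mem ?_ (hk i j)
  apply zpow_mul_algebraMap_mem_invPolySub
  right
  omega

theorem exp_mul_le_one_iff {a b : ℤ} : (exp a : ℤᵐ⁰) * exp b ≤ 1 ↔ a + b ≤ 0 := by
  rw [← exp_add, ← exp_zero, exp_le_exp]

theorem fil_sep (u u' : Basis (Fin n) (RatFunc K) V) : ∃ m₀, fil u u' m₀ = ⊥ := by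
  classical
  obtain ⟨D, hD⟩ : ∃ D : ℤ, ∀ i j, (u.repr (u' j) i).intDegree ≤ D := by
    refine ⟨∑ i, ∑ j, |(u.repr (u' j) i).intDegree|, fun i j => ?_⟩
    calc (u.repr (u' j) i).intDegree ≤ |(u.repr (u' j) i).intDegree| := le_abs_self _
      _ ≤ ∑ j, |(u.repr (u' j) i).intDegree| :=
        Finset.single_le_sum (f := fun j => |(u.repr (u' j) i).intDegree|)
          (fun j _ => abs_nonneg _) (Finset.mem_univ j)
      _ ≤ ∑ i, ∑ j, |(u.repr (u' j) i).intDegree| :=
        Finset.single_le_sum (f := fun i => ∑ j, |(u.repr (u' j) i).intDegree|)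
          (fun i _ => Finset.sum_nonneg fun j _ => abs_nonneg _) (Finset.mem_univ i)
  refine ⟨-D - 1, ?_⟩
  rw [eq_bot_iff]
  intro c hc
  rw [Submodule.mem_bot]
  by_contra hne
  obtain ⟨i, hi⟩ : ∃ i, c i ≠ 0 := by
    by_contra h
    push Not at h
    exact hne (funext h)
  rw [mem_fil_iff] at hc
  have ha : ∀ j, RatFunc.inftyValuation K (u'.repr (toV u c) j) ≤ exp (-D - 1) := by
    intro j
    have h1 := infty_le_one_of_mem_invPolySub (hc j)
    rw [map_mul, RatFunc.inftyValuation.X_zpow] at h1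
    calc RatFunc.inftyValuation K (u'.repr (toV u c) j)
        = exp (-D - 1) * (exp (-(-D - 1)) * RatFunc.inftyValuation K (u'.repr (toV u c) j)) := by
          have e0 : (-D - 1) + (-(-D - 1)) = 0 := by ring
          rw [← mul_assoc, ← exp_add, e0, exp_zero, one_mul]
      _ ≤ exp (-D - 1) * 1 := mul_le_mul' le_rfl h1
      _ = exp (-D - 1) := mul_one _
  have hT : ∀ j, RatFunc.inftyValuation K (u.repr (u' j) i) ≤ exp D := by
    intro j
    by_cases h0 : u.repr (u' j) i = 0
    · rw [h0, map_zero]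
      exact zero_le
    · rw [RatFunc.inftyValuation_apply, RatFunc.inftyValuation_of_nonzero K h0, exp_le_exp]
      exact hD i j
  have hrepr : algebraMap K[X] (RatFunc K) (c i) =
      ∑ j, u'.repr (toV u c) j * u.repr (u' j) i := by
    rw [← repr_toV u c i]
    conv_lhs => rw [← u'.sum_repr (toV u c)]
    rw [map_sum, Finsupp.coe_finsetSum, Finset.sum_apply]
    refine Finset.sum_congr rfl fun j _ => ?_
    rw [map_smul, Finsupp.smul_apply, smul_eq_mul]
  have hv : RatFunc.inftyValuation K (algebraMap K[X] (RatFunc K) (c i)) ≤ exp (-1) := by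
    rw [hrepr]
    apply Valuation.map_sum_le
    intro j _
    rw [map_mul]
    calc RatFunc.inftyValuation K (u'.repr (toV u c) j) *
          RatFunc.inftyValuation K (u.repr (u' j) i)
        ≤ exp (-D - 1) * exp D := mul_le_mul' (ha j) (hT j)
      _ = exp (-1) := by rw [← exp_add]; congr 1; ring
  rw [RatFunc.inftyValuation_apply, RatFunc.inftyValuation.polynomial K hi, exp_le_exp] at hv
  omega

theorem isDegFiltration (u u' : Basis (Fin n) (RatFunc K) V)
    (h2 : ∀ i, ∃ k : ℕ, ∀ j, ((RatFunc.X : RatFunc K)⁻¹) ^ k * u'.repr (u i) j ∈ invPolySub K) :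
    NB.IsDegFiltration (fil u u') where
  mono := fun h => fil_mono u u' h
  exhaust := fil_exhaust u u' h2
  sep := fil_sep u u'
  X_mem := fun hx => (X_smul_mem_fil_iff u u' _ _).mpr hx
  X_sat := fun hx => (X_smul_mem_fil_iff u u' _ _).mp hx

theorem prod_exp_eq {ι : Type*} (s : Finset ι) (f : ι → ℤ) :
    ∏ k ∈ s, (exp (f k) : ℤᵐ⁰) = exp (∑ k ∈ s, f k) := by
  classical
  induction s using Finset.induction_on with
  | empty => simp
  | insert a s ha ih => rw [Finset.prod_insert ha, Finset.sum_insert ha, ih, exp_add]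

theorem infty_det_map_eq_one [DecidableEq (RatFunc K)] (P Q : Matrix (Fin n) (Fin n) K[X])
    (h : P * Q = 1) :
    RatFunc.inftyValuation K ((P.map (algebraMap K[X] (RatFunc K))).det) = 1 := by
  have hu : IsUnit P.det := by
    have := congrArg Matrix.det h
    rw [Matrix.det_mul, Matrix.det_one] at this
    exact IsUnit.of_mul_eq_one _ this
  obtain ⟨c, hc, hPc⟩ := Polynomial.isUnit_iff.mp hu
  have hdet : (P.map (algebraMap K[X] (RatFunc K))).det = algebraMap K[X] (RatFunc K) P.det := by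
    rw [RingHom.map_det]
    rfl
  rw [hdet, ← hPc, RatFunc.algebraMap_C, RatFunc.inftyValuation.C K hc.ne_zero]

theorem intDegree_det_eq (u u' : Basis (Fin n) (RatFunc K) V)
    (h1 : ∀ j, ∃ k : ℕ, ∀ i, (RatFunc.X : RatFunc K) ^ k * u.repr (u' j) i ∈ polySub K)
    (b : Basis (Fin n) K[X] (Fin n → K[X])) (d : Fin n → ℤ)
    (hbd : ∀ (m : ℤ) (x : Fin n → K[X]),
      x ∈ fil u u' m ↔ ∀ i, b.repr x i = 0 ∨ ((b.repr x i).natDegree : ℤ) + d i ≤ m) :
    (u.toMatrix u').det.intDegree = - ∑ i, d i := by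
  classical
  have hX : (RatFunc.X : RatFunc K) ≠ 0 := RatFunc.X_ne_zero
  set e := Pi.basisFun K[X] (Fin n) with he
  set P : Matrix (Fin n) (Fin n) K[X] := e.toMatrix b with hP
  set Q : Matrix (Fin n) (Fin n) K[X] := b.toMatrix e with hQ
  have hPQ : P * Q = 1 := Basis.toMatrix_mul_toMatrix_flip e b
  have hQP : Q * P = 1 := Basis.toMatrix_mul_toMatrix_flip b e
  set T : Matrix (Fin n) (Fin n) (RatFunc K) := u.toMatrix u' with hT
  set T' : Matrix (Fin n) (Fin n) (RatFunc K) := u'.toMatrix u with hT'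
  have hTT' : T * T' = 1 := Basis.toMatrix_mul_toMatrix_flip u u'
  have hdetT : T.det * T'.det = 1 := by
    rw [← Matrix.det_mul, hTT', Matrix.det_one]
  have hdetT0 : T.det ≠ 0 := left_ne_zero_of_mul_eq_one hdetT
  have hvT : RatFunc.inftyValuation K T.det = exp T.det.intDegree := by
    rw [RatFunc.inftyValuation_apply, RatFunc.inftyValuation_of_nonzero K hdetT0]
  have hvT' : RatFunc.inftyValuation K T'.det = exp (-T.det.intDegree) := by
    have := congrArg (RatFunc.inftyValuation K) hdetT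
    rw [map_mul, map_one, hvT] at this
    calc RatFunc.inftyValuation K T'.det
        = exp (-T.det.intDegree) * (exp T.det.intDegree * RatFunc.inftyValuation K T'.det) := by
          rw [← mul_assoc, ← exp_add, neg_add_cancel, exp_zero, one_mul]
      _ = exp (-T.det.intDegree) := by rw [this, mul_one]
  -- the basis vectors lie in the right pieces
  have hbk : ∀ k, b k ∈ fil u u' (d k) := by
    intro k
    rw [hbd]
    intro i
    rw [b.repr_self]
    by_cases hik : i = k
    · subst hik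
      right
      simp
    · left
      simp [Ne.symm hik]
  -- Step 1
  have hS0 : ∀ j k, RatFunc.inftyValuation K
      (((T' * P.map (algebraMap K[X] (RatFunc K))) *
        Matrix.diagonal (fun k => (RatFunc.X : RatFunc K) ^ (-d k))) j k) ≤ 1 := by
    intro j k
    rw [Matrix.mul_diagonal]
    have hentry : (T' * P.map (algebraMap K[X] (RatFunc K))) j k = u'.repr (toV u (b k)) j := by
      rw [repr'_toV, Matrix.mul_apply]
      refine Finset.sum_congr rfl fun i _ => ?_
      rw [hT', Basis.toMatrix_apply, Matrix.map_apply, hP, Basis.toMatrix_apply, he,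
        Pi.basisFun_repr, mul_comm]
    rw [hentry, mul_comm]
    exact infty_le_one_of_mem_invPolySub ((mem_fil_iff u u' (d k) (b k)).mp (hbk k) j)
  have h1det := val_det_le_one (RatFunc.inftyValuation K) _ hS0
  rw [Matrix.det_mul, Matrix.det_mul, Matrix.det_diagonal, map_mul, map_mul, map_prod,
    infty_det_map_eq_one P Q hPQ, hvT', mul_one] at h1det
  simp only [RatFunc.inftyValuation.X_zpow] at h1det
  rw [prod_exp_eq, exp_mul_le_one_iff] at h1det
  -- Step 2
  have hS1 : ∀ k j, RatFunc.inftyValuation K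
      ((Matrix.diagonal (fun k => (RatFunc.X : RatFunc K) ^ (d k)) *
        (Q.map (algebraMap K[X] (RatFunc K)) * T)) k j) ≤ 1 := by
    intro k j
    rw [Matrix.diagonal_mul]
    obtain ⟨kj, hkj⟩ := h1 j
    choose c hc using fun i => (mem_polySub_iff _).mp (hkj i)
    have htoV : toV u c = ((RatFunc.X : RatFunc K) ^ kj) • u' j := by
      apply u.repr.injective
      ext i
      rw [repr_toV, hc, map_smul, Finsupp.smul_apply, smul_eq_mul]
    have hcfil : c ∈ fil u u' (kj : ℤ) := by
      rw [mem_fil_iff]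
      intro j'
      rw [htoV, map_smul, Finsupp.smul_apply, smul_eq_mul, u'.repr_self, ← mul_assoc,
        zpow_neg, zpow_natCast, inv_mul_cancel₀ (pow_ne_zero _ hX), one_mul]
      by_cases hjj : j = j'
      · subst hjj
        rw [Finsupp.single_eq_same]
        exact (invPolySub K).one_mem
      · rw [Finsupp.single_eq_of_ne' hjj]
        exact (invPolySub K).zero_mem
    have hck := (hbd kj c).mp hcfil k
    have hrepr : b.repr c k = ∑ i, Q k i * c i := by
      have := congrFun (Basis.toMatrix_mulVec_repr e b c) k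
      rw [← this, Matrix.mulVec, dotProduct]
      refine Finset.sum_congr rfl fun i _ => ?_
      rw [he, Pi.basisFun_repr]
    have hentry : algebraMap K[X] (RatFunc K) (b.repr c k) =
        (RatFunc.X : RatFunc K) ^ kj * (Q.map (algebraMap K[X] (RatFunc K)) * T) k j := by
      rw [hrepr, map_sum, Matrix.mul_apply, Finset.mul_sum]
      refine Finset.sum_congr rfl fun i _ => ?_
      rw [map_mul, hc, Matrix.map_apply, hT, Basis.toMatrix_apply]
      ring
    have hentry' : (RatFunc.X : RatFunc K) ^ (d k) *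
        (Q.map (algebraMap K[X] (RatFunc K)) * T) k j =
        (RatFunc.X : RatFunc K) ^ (-((kj : ℤ) - d k)) *
          algebraMap K[X] (RatFunc K) (b.repr c k) := by
      rw [hentry, ← mul_assoc, ← zpow_natCast, ← zpow_add₀ hX]
      congr 2
      ring
    rw [hentry']
    apply infty_le_one_of_mem_invPolySub
    apply zpow_mul_algebraMap_mem_invPolySub
    rcases hck with h0 | hle
    · exact Or.inl h0
    · right
      omega
  have h2det := val_det_le_one (RatFunc.inftyValuation K) _ hS1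
  rw [Matrix.det_mul, Matrix.det_mul, Matrix.det_diagonal, map_mul, map_mul, map_prod,
    infty_det_map_eq_one Q P hQP, hvT, one_mul] at h2det
  simp only [RatFunc.inftyValuation.X_zpow] at h2det
  rw [prod_exp_eq, exp_mul_le_one_iff] at h2det
  have e1 : ∑ k, -d k = - ∑ k, d k := by rw [Finset.sum_neg_distrib]
  rw [e1] at h1det
  omega

end Lattice

end Fermat.Agent.H90.LC

namespace Fermat.Agent.H90

open Fermat.Agent.H56.RH Fermat.Agent.H90.LC

/-- **(LC) lattice count.** -/
theorem latticeCount : Fermat.Agent.H56.RH.LatticeCountStatement := by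
  intro K V _ _ _ _ _ n u u' h1 h2
  classical
  have hfil := isDegFiltration u u' h2
  obtain ⟨b, d, hbd⟩ := hfil.exists_normal_basis (Pi.basisFun K[X] (Fin n))
  have hdet := intDegree_det_eq u u' h1 b d hbd
  refine ⟨∑ i, |d i|, fun m hm => ?_⟩
  obtain ⟨hfin, hrank⟩ := NB.finrank_fil_eq b d (fil u u') hbd m
  have e : fil u u' m ≃ₗ[K] latticeSpace u u' m :=
    (Submodule.equivMapOfInjective (toV u) (toV_injective u) (fil u u' m)).trans
      (LinearEquiv.ofEq _ _ (map_fil u u' m))
  refine ⟨Module.Finite.equiv e, ?_⟩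
  rw [← e.finrank_eq, hrank, hdet]
  push_cast
  have hle : ∀ i, d i ≤ m := by
    intro i
    calc d i ≤ |d i| := le_abs_self _
      _ ≤ ∑ i, |d i| := Finset.single_le_sum (f := fun i => |d i|)
          (fun i _ => abs_nonneg _) (Finset.mem_univ i)
      _ ≤ m := hm
  have hterm : ∀ i ∈ (Finset.univ : Finset (Fin n)),
      (((m - d i + 1).toNat : ℕ) : ℤ) = m - d i + 1 := by
    intro i _
    rw [Int.toNat_of_nonneg]
    have := hle i
    omega
  rw [Finset.sum_congr rfl hterm, Finset.sum_add_distrib, Finset.sum_sub_distrib]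
  simp only [Finset.sum_const, Finset.card_univ, Fintype.card_fin, nsmul_eq_mul, mul_one]
  ring

end Fermat.Agent.H90

end
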