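/-
P-ES / ES-A / LOC (helper90): local lemmas POW-EQ, POW-ORD, MULT-CHAR of
`Fermat.Agent.H23.EsA.Lemmas`.
-/
import Mathlib
import Fermat.Agent.H61.GenAn2
import Fermat.Agent.H23.EsA.Lemmas

set_option autoImplicit false

noncomputable section

open UpperHalfPlane Filter Topology
open scoped MatrixGroups Manifold

namespace Fermat.Agent.H90

/-! ### Identity theorem, "frequently" form -/

/-- Identity theorem on `ℍ`, frequently-equal form. -/
lemma esa_eq_of_frequently_eq {f₁ f₂ : ℍ → ℂ} (h₁ : MDiff f₁) (h₂ : MDiff f₂) (z₀ : ℍ)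
    (h : ∃ᶠ z in 𝓝[≠] (z₀ : ℂ), (f₁ ∘ ofComplex) z = (f₂ ∘ ofComplex) z) : f₁ = f₂ := by
  have hpre : IsPreconnected {z : ℂ | 0 < z.im} :=
    (convex_halfSpace_im_gt 0).isPreconnected
  have key := (Fermat.Agent.H61.analyticOnNhd_comp_ofComplex h₁).eqOn_of_preconnected_of_frequently_eq
    (Fermat.Agent.H61.analyticOnNhd_comp_ofComplex h₂) hpre
    (show (z₀ : ℂ) ∈ {z : ℂ | 0 < z.im} from z₀.im_pos) h
  funext z
  have := key (show (z : ℂ) ∈ {z : ℂ | 0 < z.im} from z.im_pos)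
  simpa [Function.comp_apply, ofComplex_apply] using this

/-- A nonzero holomorphic function on `ℍ` has finite order at every point. -/
lemma esa_order_ne_top {G : ℍ → ℂ} (hG : MDiff G) (hG0 : G ≠ 0) (z₀ : ℍ) :
    meromorphicOrderAt (G ∘ ofComplex) (z₀ : ℂ) ≠ ⊤ := by
  intro htop
  apply hG0
  have h0 : MDiff (0 : ℍ → ℂ) := by
    have : (0 : ℍ → ℂ) = fun _ => (0 : ℂ) := rfl
    rw [this]
    exact mdifferentiable_const
  apply Fermat.Agent.H61.eq_of_eventuallyEq_nhdsNE hG h0 z₀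
  have := meromorphicOrderAt_eq_top_iff.mp htop
  filter_upwards [this] with z hz
  simpa [Function.comp_apply] using hz

/-! ### POW-ORD -/

theorem esa_powOrder : Fermat.Agent.H23.EsA.PowOrderStatement := by
  intro m G hG hG0 z₀
  have han : AnalyticAt ℂ (G ∘ ofComplex) (z₀ : ℂ) :=
    Fermat.Agent.H61.analyticAt_comp_ofComplex hG z₀
  have hne : meromorphicOrderAt (G ∘ ofComplex) (z₀ : ℂ) ≠ ⊤ := esa_order_ne_top hG hG0 z₀
  have hnonneg : 0 ≤ meromorphicOrderAt (G ∘ ofComplex) (z₀ : ℂ) :=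
    han.meromorphicOrderAt_nonneg
  obtain ⟨k, hk⟩ := WithTop.ne_top_iff_exists.mp hne
  have hk0 : 0 ≤ k := by
    rw [← hk] at hnonneg
    exact_mod_cast hnonneg
  obtain ⟨n, rfl⟩ := Int.eq_ofNat_of_zero_le hk0
  refine ⟨n, hk.symm, ?_⟩
  have hpow : (G ^ m) ∘ ofComplex = (G ∘ ofComplex) ^ m := by
    funext z
    simp [Function.comp_apply]
  rw [hpow, meromorphicOrderAt_pow han.meromorphicAt, ← hk]
  push_cast
  rfl

/-! ### POW-EQ -/

theorem esa_powEq : Fermat.Agent.H23.EsA.PowEqStatement := by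
  intro m hm G₁ G₂ h₁ h₂ hpow
  classical
  -- the finite set of `m`-th roots of unity
  set S : Finset ℂ := Polynomial.nthRootsFinset m (1 : ℂ) with hS
  have hSmem : ∀ ζ : ℂ, ζ ∈ S ↔ ζ ^ m = 1 := fun ζ => Polynomial.mem_nthRootsFinset hm 1
  -- pointwise: some root of unity works
  have hpt : ∀ z : ℍ, ∃ ζ ∈ S, G₁ z = ζ * G₂ z := by
    intro z
    have hz : G₁ z ^ m = G₂ z ^ m := by
      have := congrFun hpow z
      simpa using this
    by_cases h0 : G₂ z = 0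
    · refine ⟨1, (hSmem 1).mpr (one_pow m), ?_⟩
      rw [h0, zero_pow hm.ne'] at hz
      rw [h0, mul_zero]
      exact pow_eq_zero_iff hm.ne' |>.mp hz
    · refine ⟨G₁ z / G₂ z, (hSmem _).mpr ?_, ?_⟩
      · rw [div_pow, hz, div_self (pow_ne_zero m h0)]
      · field_simp
  -- base point
  let z₀ : ℍ := UpperHalfPlane.I
  have hev : ∀ᶠ z in 𝓝[≠] (z₀ : ℂ), ∃ ζ ∈ S, (G₁ ∘ ofComplex) z = ζ * (G₂ ∘ ofComplex) z :=
    Eventually.of_forall fun z => hpt (ofComplex z)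
  have hfreq : ∃ ζ ∈ S, ∃ᶠ z in 𝓝[≠] (z₀ : ℂ), (G₁ ∘ ofComplex) z = ζ * (G₂ ∘ ofComplex) z := by
    by_contra hcon
    have hall : ∀ᶠ z in 𝓝[≠] (z₀ : ℂ), ∀ ζ ∈ S,
        ¬ ((G₁ ∘ ofComplex) z = ζ * (G₂ ∘ ofComplex) z) := by
      rw [Filter.eventually_all_finset]
      intro ζ hζ
      exact Filter.not_frequently.mp (fun hf => hcon ⟨ζ, hζ, hf⟩)
    have hfalse : ∀ᶠ z in 𝓝[≠] (z₀ : ℂ), False := by
      filter_upwards [hev, hall] with z ⟨ζ, hζ, h⟩ h'
      exact h' ζ hζ h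
    exact (Filter.eventually_false_iff_eq_bot.mp hfalse ▸ (inferInstance :
      (𝓝[≠] (z₀ : ℂ)).NeBot)).ne rfl
  obtain ⟨ζ, hζ, hfr⟩ := hfreq
  refine ⟨ζ, (hSmem ζ).mp hζ, ?_⟩
  have h₂' : MDiff (fun z => ζ * G₂ z) := by
    have : (fun z => ζ * G₂ z) = ζ • G₂ := by
      funext z; simp
    rw [this]
    exact h₂.const_smul ζ
  have := esa_eq_of_frequently_eq h₁ h₂' z₀ (by simpa [Function.comp_apply] using hfr)
  intro z
  exact congrFun this z

/-! ### MULT-CHAR -/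

/-- Abstract multiplier lemma with a constant: if `F` has order `n` at `z₀`, `φ` is analytic at
`z₀`, fixes `z₀`, has nonzero derivative there and `F ∘ φ = c • F` near `z₀`, then
`(φ' z₀) ^ n = c`. -/
lemma esa_deriv_zpow_eq_of_comp_eq {F φ : ℂ → ℂ} {z₀ : ℂ} {n : ℤ} {c : ℂ}
    (hF : MeromorphicAt F z₀) (hn : meromorphicOrderAt F z₀ = n)
    (hφ : AnalyticAt ℂ φ z₀) (hφ0 : φ z₀ = z₀) (hφ' : deriv φ z₀ ≠ 0)
    (hinv : ∀ᶠ z in 𝓝[≠] z₀, F (φ z) = c * F z) :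
    (deriv φ z₀) ^ n = c := by
  obtain ⟨u, hu, hu0, hFu⟩ := (meromorphicOrderAt_eq_int_iff hF).mp hn
  have hnc : ¬ EventuallyConst φ (𝓝 z₀) := by
    have h1 : analyticOrderAt (fun z => φ z - φ z₀) z₀ = 1 :=
      hφ.analyticOrderAt_sub_eq_one_of_deriv_ne_zero hφ'
    rw [eventuallyConst_iff_analyticOrderAt_sub_eq_top, h1]
    simp
  have hmap : Tendsto φ (𝓝[≠] z₀) (𝓝[≠] z₀) := by
    have := hφ.map_nhdsNE hnc
    rw [hφ0] at this
    exact this
  have hFφ : ∀ᶠ z in 𝓝[≠] z₀, F (φ z) = (φ z - z₀) ^ n • u (φ z) := hmap.eventually hFu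
  have hne : ∀ᶠ z in 𝓝[≠] z₀, z ≠ z₀ := eventually_mem_nhdsWithin
  have hslope : ∀ z, φ z - z₀ = (z - z₀) * dslope φ z₀ z := by
    intro z
    have := sub_smul_dslope φ z₀ z
    rw [hφ0] at this
    rw [← this, smul_eq_mul]
  have hev : ∀ᶠ z in 𝓝[≠] z₀, (dslope φ z₀ z) ^ n * u (φ z) = c * u z := by
    filter_upwards [hFφ, hFu, hinv, hne] with z h1 h2 h3 h4
    rw [h1, h2, hslope z, mul_zpow, smul_eq_mul, smul_eq_mul, mul_assoc] at h3
    have hz : (z - z₀) ^ n ≠ 0 := zpow_ne_zero _ (sub_ne_zero.mpr h4)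
    have h3' : (z - z₀) ^ n * (dslope φ z₀ z ^ n * u (φ z)) = (z - z₀) ^ n * (c * u z) := by
      rw [h3]; ring
    exact mul_left_cancel₀ hz h3'
  have hds : ContinuousAt (dslope φ z₀) z₀ := continuousAt_dslope_same.mpr hφ.differentiableAt
  have hds0 : dslope φ z₀ z₀ ≠ 0 := by rw [dslope_same]; exact hφ'
  have hc1 : ContinuousAt (fun z => (dslope φ z₀ z) ^ n * u (φ z)) z₀ := by
    refine ContinuousAt.mul (hds.zpow₀ n (Or.inl hds0)) ?_
    have : ContinuousAt u (φ z₀) := by rw [hφ0]; exact hu.continuousAt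
    exact ContinuousAt.comp (f := φ) (g := u) this hφ.continuousAt
  have hc2 : ContinuousAt (fun z => c * u z) z₀ := continuousAt_const.mul hu.continuousAt
  have hlim := tendsto_nhds_unique_of_eventuallyEq
    (hc1.tendsto.mono_left nhdsWithin_le_nhds) (hc2.tendsto.mono_left nhdsWithin_le_nhds) hev
  simp only [dslope_same, hφ0] at hlim
  exact mul_right_cancel₀ hu0 hlim

theorem esa_multiplierChar : Fermat.Agent.H23.EsA.MultiplierCharStatement := by
  intro G hG γ z₀ hγ c hinv n hn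
  have hdet : 0 < ((γ : GL (Fin 2) ℝ)).det.val := by
    simp
  set φ : ℂ → ℂ := fun z => ((γ : GL (Fin 2) ℝ) • ofComplex z : ℍ) with hφdef
  have hφ : AnalyticAt ℂ φ z₀ := z₀.analyticAt_smul hdet
  have hφ0 : φ z₀ = z₀ := by
    simp only [hφdef, ofComplex_apply]
    exact congrArg _ hγ
  have hdet1 : ((γ : GL (Fin 2) ℝ)).val.det = 1 :=
    (Matrix.SpecialLinearGroup.map (Int.castRingHom ℝ) γ).det_coe
  have hderiv : deriv φ z₀ = 1 / denom γ z₀ ^ 2 := by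
    rw [hφdef, z₀.deriv_smul hdet, hdet1]
    simp
  have hd : denom γ z₀ ≠ 0 := denom_ne_zero _ z₀
  have hφ' : deriv φ z₀ ≠ 0 := by
    rw [hderiv]; exact one_div_ne_zero (pow_ne_zero _ hd)
  have hFφ : ∀ᶠ z in 𝓝[≠] (z₀ : ℂ), (G ∘ ofComplex) (φ z) = c * (G ∘ ofComplex) z := by
    refine Eventually.of_forall fun z => ?_
    simp only [hφdef, Function.comp_apply, ofComplex_apply]
    exact hinv _
  have key := esa_deriv_zpow_eq_of_comp_eq (n := (n : ℤ)) (c := c)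
    (Fermat.Agent.H61.analyticAt_comp_ofComplex hG z₀).meromorphicAt (by exact_mod_cast hn)
    hφ hφ0 hφ' hFφ
  rw [hderiv, zpow_natCast, one_div, inv_pow] at key
  rw [← key]
  exact inv_mul_cancel₀ (pow_ne_zero _ (pow_ne_zero _ hd))

end Fermat.Agent.H90

end
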