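import Mathlib
import Fermat.Prelude.Def_FLTPrelim_FreyPackage
import Fermat.Prelude.Def_FLTPrelim_Modularity
import Fermat.Prelude.Def_FLTPrelim_ModularRep
import Fermat.Prelude.Def_FreyPackage_IsConductorLevel
import Fermat.Prelude.Def_WeierstrassCurve_Mlc1RowStatement

set_option autoImplicit false

open WeierstrassCurve

namespace Fermat.Agent.H90

/-- `b` is even in a Frey package. -/
theorem frey_two_dvd_b (P : FreyPackage) : (2 : ℤ) ∣ P.b :=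
  (ZMod.intCast_zmod_eq_zero_iff_dvd P.b 2).1 P.hb2

/-- `a ≡ 3 mod 4` in a Frey package. -/
theorem frey_four_dvd_a_sub (P : FreyPackage) : (4 : ℤ) ∣ P.a - 3 := by
  have h : ((P.a - 3 : ℤ) : ZMod 4) = 0 := by
    push_cast
    rw [P.ha4]
    decide
  exact (ZMod.intCast_zmod_eq_zero_iff_dvd _ 4).1 h

theorem frey_a_odd (P : FreyPackage) : ¬ (2 : ℤ) ∣ P.a := by
  intro h
  have h4 := frey_four_dvd_a_sub P
  omega

/-- `32 ∣ b ^ p`. -/
theorem frey_32_dvd_b_pow (P : FreyPackage) : (32 : ℤ) ∣ P.b ^ P.p := by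
  have h2 : (2 : ℤ) ^ 5 ∣ P.b ^ P.p :=
    (pow_dvd_pow_of_dvd (frey_two_dvd_b P) 5).trans (pow_dvd_pow _ P.hp5)
  norm_num at h2
  exact h2

/-- `a ^ p ≡ 3 mod 4`. -/
theorem frey_four_dvd_a_pow_sub (P : FreyPackage) : (4 : ℤ) ∣ P.a ^ P.p - 3 := by
  have h : ((P.a ^ P.p - 3 : ℤ) : ZMod 4) = 0 := by
    push_cast
    rw [P.ha4]
    obtain ⟨k, hk⟩ := P.hp_odd
    rw [hk, pow_succ, pow_mul]
    have h9 : ((3 : ZMod 4) ^ 2) = 1 := by decide
    rw [h9, one_pow, one_mul, sub_self]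
  exact (ZMod.intCast_zmod_eq_zero_iff_dvd _ 4).1 h

theorem frey_four_dvd_a2 (P : FreyPackage) : (4 : ℤ) ∣ P.b ^ P.p - 1 - P.a ^ P.p := by
  have h1 := frey_32_dvd_b_pow P
  have h2 := frey_four_dvd_a_pow_sub P
  omega

theorem frey_16_dvd_a4 (P : FreyPackage) : (16 : ℤ) ∣ -(P.a ^ P.p) * (P.b ^ P.p) := by
  have h1 : (16 : ℤ) ∣ P.b ^ P.p := (by norm_num : (16 : ℤ) ∣ 32).trans (frey_32_dvd_b_pow P)
  exact Dvd.dvd.mul_left h1 _

theorem freyCurveInt_map (P : FreyPackage) :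
    P.freyCurveInt.map (Int.castRingHom ℚ) = P.freyCurve := by
  obtain ⟨k, hk⟩ := frey_four_dvd_a2 P
  obtain ⟨m, hm⟩ := frey_16_dvd_a4 P
  have hk' : (P.b ^ P.p - 1 - P.a ^ P.p) / 4 = k := by
    rw [hk]; exact Int.mul_ediv_cancel_left _ (by norm_num)
  have hm' : -(P.a ^ P.p) * (P.b ^ P.p) / 16 = m := by
    rw [hm]; exact Int.mul_ediv_cancel_left _ (by norm_num)
  have hkq : ((P.b : ℚ) ^ P.p - 1 - (P.a : ℚ) ^ P.p) = 4 * (k : ℚ) := by
    have := congrArg (Int.cast : ℤ → ℚ) hk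
    push_cast at this
    exact this
  have hmq : (-((P.a : ℚ) ^ P.p) * ((P.b : ℚ) ^ P.p)) = 16 * (m : ℚ) := by
    have := congrArg (Int.cast : ℤ → ℚ) hm
    push_cast at this
    exact this
  ext
  · simp [FreyPackage.freyCurveInt, FreyPackage.freyCurve, WeierstrassCurve.map]
  · simp only [FreyPackage.freyCurveInt, FreyPackage.freyCurve, WeierstrassCurve.map, hk']
    rw [hkq]
    simp
  · simp [FreyPackage.freyCurveInt, FreyPackage.freyCurve, WeierstrassCurve.map]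
  · simp only [FreyPackage.freyCurveInt, FreyPackage.freyCurve, WeierstrassCurve.map, hm']
    rw [hmq]
    simp
  · simp [FreyPackage.freyCurveInt, FreyPackage.freyCurve, WeierstrassCurve.map]

theorem freyCurveInt_isIntegralModelOf (P : FreyPackage) :
    P.freyCurveInt.IsIntegralModelOf P.freyCurve :=
  ⟨1, by rw [one_smul, freyCurveInt_map]⟩

theorem freyCurve_Δ (P : FreyPackage) :
    P.freyCurve.Δ = ((P.a : ℚ) * P.b * P.c) ^ (2 * P.p) / 2 ^ 8 := by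
  have hc : (P.c : ℚ) ^ P.p = (P.a : ℚ) ^ P.p + (P.b : ℚ) ^ P.p := by
    have := congrArg (Int.cast : ℤ → ℚ) P.hFLT
    push_cast at this
    exact this.symm
  rw [mul_pow, mul_pow, pow_mul', pow_mul', pow_mul', hc]
  simp only [FreyPackage.freyCurve, WeierstrassCurve.Δ, WeierstrassCurve.b₂, WeierstrassCurve.b₄,
    WeierstrassCurve.b₆, WeierstrassCurve.b₈]
  ring

theorem freyCurveInt_Δ (P : FreyPackage) :
    2 ^ 8 * P.freyCurveInt.Δ = (P.a * P.b * P.c) ^ (2 * P.p) := by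
  have h1 : ((P.freyCurveInt.Δ : ℤ) : ℚ) = P.freyCurve.Δ := by
    rw [← freyCurveInt_map, WeierstrassCurve.map_Δ]
    rfl
  have h2 : ((2 ^ 8 * P.freyCurveInt.Δ : ℤ) : ℚ) = (((P.a * P.b * P.c) ^ (2 * P.p) : ℤ) : ℚ) := by
    push_cast
    rw [h1, freyCurve_Δ]
    field_simp
    ring
  exact_mod_cast h2

theorem freyCurveInt_Δ_ne_zero (P : FreyPackage) : P.freyCurveInt.Δ ≠ 0 := by
  intro h
  have h1 := freyCurveInt_Δ P
  rw [h, mul_zero] at h1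
  exact pow_ne_zero _ P.habc0 h1.symm

theorem frey_prime_dvd_abc_of_dvd_Δ (P : FreyPackage) {q : ℕ} (hq : q.Prime)
    (h : (q : ℤ) ∣ P.freyCurveInt.Δ) : (q : ℤ) ∣ P.a * P.b * P.c := by
  have h1 : (q : ℤ) ∣ (P.a * P.b * P.c) ^ (2 * P.p) := by
    rw [← freyCurveInt_Δ]
    exact Dvd.dvd.mul_left h _
  exact (Nat.prime_iff_prime_int.mp hq).dvd_of_dvd_pow h1

theorem freyCurve_c₄ (P : FreyPackage) :
    P.freyCurve.c₄ = ((P.a : ℚ) ^ P.p) ^ 2 + (P.a : ℚ) ^ P.p * (P.b : ℚ) ^ P.p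
      + ((P.b : ℚ) ^ P.p) ^ 2 := by
  simp only [FreyPackage.freyCurve, WeierstrassCurve.c₄, WeierstrassCurve.b₂, WeierstrassCurve.b₄]
  ring

theorem freyCurveInt_c₄ (P : FreyPackage) :
    P.freyCurveInt.c₄ = (P.a ^ P.p) ^ 2 + P.a ^ P.p * P.b ^ P.p + (P.b ^ P.p) ^ 2 := by
  have h1 : ((P.freyCurveInt.c₄ : ℤ) : ℚ) = P.freyCurve.c₄ := by
    rw [← freyCurveInt_map, WeierstrassCurve.map_c₄]
    rfl
  have h2 : ((P.freyCurveInt.c₄ : ℤ) : ℚ)
      = (((P.a ^ P.p) ^ 2 + P.a ^ P.p * P.b ^ P.p + (P.b ^ P.p) ^ 2 : ℤ) : ℚ) := by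
    rw [h1, freyCurve_c₄]
    push_cast
    ring
  exact_mod_cast h2

theorem frey_not_prime_dvd_of_gcd {x y : ℤ} (hxy : gcd x y = 1) {q : ℕ} (hq : q.Prime)
    (hx : (q : ℤ) ∣ x) (hy : (q : ℤ) ∣ y) : False := by
  have h : (q : ℤ) ∣ gcd x y := dvd_gcd hx hy
  rw [hxy] at h
  have hq1 : (q : ℤ) ≤ 1 := Int.le_of_dvd one_pos h
  have := hq.two_le
  omega

theorem freyCurveInt_isSemistableModel (P : FreyPackage) : P.freyCurveInt.IsSemistableModel := by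
  intro q hq hΔ hc₄
  have hqp : Prime (q : ℤ) := Nat.prime_iff_prime_int.mp hq
  rw [freyCurveInt_c₄] at hc₄
  have habc := frey_prime_dvd_abc_of_dvd_Δ P hq hΔ
  rcases hqp.dvd_or_dvd habc with hab | hc
  · rcases hqp.dvd_or_dvd hab with ha | hb
    · -- q ∣ a
      have hA : (q : ℤ) ∣ P.a ^ P.p := dvd_pow ha P.hp0
      have hB2 : (q : ℤ) ∣ (P.b ^ P.p) ^ 2 := by
        have h1 : (q : ℤ) ∣ (P.a ^ P.p) ^ 2 + P.a ^ P.p * P.b ^ P.p :=
          dvd_add (dvd_pow hA (by norm_num)) (Dvd.dvd.mul_right hA _)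
        exact (dvd_add_right h1).mp hc₄
      have hb : (q : ℤ) ∣ P.b := hqp.dvd_of_dvd_pow (hqp.dvd_of_dvd_pow hB2)
      exact frey_not_prime_dvd_of_gcd P.hgcdab hq ha hb
    · -- q ∣ b
      have hB : (q : ℤ) ∣ P.b ^ P.p := dvd_pow hb P.hp0
      have hA2 : (q : ℤ) ∣ (P.a ^ P.p) ^ 2 := by
        have h1 : (q : ℤ) ∣ P.a ^ P.p * P.b ^ P.p + (P.b ^ P.p) ^ 2 :=
          dvd_add (Dvd.dvd.mul_left hB _) (dvd_pow hB (by norm_num))
        rw [add_assoc] at hc₄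
        exact (dvd_add_left h1).mp hc₄
      have ha : (q : ℤ) ∣ P.a := hqp.dvd_of_dvd_pow (hqp.dvd_of_dvd_pow hA2)
      exact frey_not_prime_dvd_of_gcd P.hgcdab hq ha hb
  · -- q ∣ c
    have hC : (q : ℤ) ∣ P.a ^ P.p + P.b ^ P.p := by
      rw [P.hFLT]; exact dvd_pow hc P.hp0
    have hAB : (q : ℤ) ∣ P.a ^ P.p * P.b ^ P.p := by
      have h1 : (q : ℤ) ∣ (P.a ^ P.p + P.b ^ P.p) ^ 2 := dvd_pow hC (by norm_num)
      have h2 : P.a ^ P.p * P.b ^ P.p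
          = (P.a ^ P.p + P.b ^ P.p) ^ 2
            - ((P.a ^ P.p) ^ 2 + P.a ^ P.p * P.b ^ P.p + (P.b ^ P.p) ^ 2) := by ring
      rw [h2]
      exact dvd_sub h1 hc₄
    rcases hqp.dvd_or_dvd hAB with hA | hB
    · exact frey_not_prime_dvd_of_gcd P.hgcdac hq (hqp.dvd_of_dvd_pow hA) hc
    · exact frey_not_prime_dvd_of_gcd P.hgcdbc hq (hqp.dvd_of_dvd_pow hB) hc

/-- The glue: exact-conductor-level modularity of the integral Frey model yields the frozen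
statement of S06. -/
theorem frey_modularRep_of_exactConductor (P : FreyPackage)
    (h : Mlc1IsModularModelOfExactConductorLevel P.freyCurveInt) :
    ∃ N : ℕ, P.IsConductorLevel N ∧ P.ModularRepOfLevel N := by
  obtain ⟨N, hN, hsq, hbad, f, hf, hcoef⟩ := h
  refine ⟨N, ⟨hN, hsq, fun q hq hqN => frey_prime_dvd_abc_of_dvd_Δ P hq ((hbad q hq).1 hqN)⟩, ?_⟩
  obtain ⟨𝔪, hmax, hp⟩ := FLTPrelim.exists_maximalIdeal_natCast_prime_mem P.pp
  refine ⟨f, P.freyCurveInt, 𝔪, hf, freyCurveInt_isIntegralModelOf P, hmax, hp, ?_⟩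
  intro ℓ hℓ hgood hℓN _
  refine ⟨((P.freyCurveInt.apOfModel ℓ : ℤ) : integralClosure ℤ ℂ), ?_, ?_⟩
  · rw [hcoef ℓ hℓ hgood hℓN]
    simp
  · rw [sub_self]
    exact 𝔪.zero_mem

end Fermat.Agent.H90
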