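import Mathlib

set_option autoImplicit false

open NumberField Module

namespace Fermat.Agent.H90

/-- Abstract counting lemma: if a commutative group `G` is generated by `n` elements, and a
homomorphism `Φ` from `G` to an `𝔽_p`-vector space takes `n` elements to a linearly independent
family, then the kernel of `Φ` consists of `p`-th powers. -/
theorem exists_pow_eq_of_linearIndependent {G : Type*} [CommGroup G] {p : ℕ} [Fact p.Prime]
    {V : Type*} [AddCommGroup V] [Module (ZMod p) V] {n : ℕ}
    (g : Fin n → G) (hg : ∀ x : G, ∃ c : Fin n → ℤ, x = ∏ i, g i ^ c i)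
    (Φ : G →* Multiplicative V) (e : Fin n → G)
    (hind : LinearIndependent (ZMod p) (fun k => (Φ (e k)).toAdd))
    (u : G) (hu : Φ u = 1) : ∃ v : G, u = v ^ p := by
  classical
  -- the images of the generators
  set v : Fin n → V := fun i => (Φ (g i)).toAdd with hv
  have hΦ : ∀ (c : Fin n → ℤ), (Φ (∏ i, g i ^ c i)).toAdd = ∑ i, (c i : ZMod p) • v i := by
    intro c
    rw [map_prod, toAdd_prod]
    refine Finset.sum_congr rfl fun i _ => ?_
    rw [map_zpow, toAdd_zpow, Int.cast_smul_eq_zsmul]
  have hmem : ∀ x : G, (Φ x).toAdd ∈ Submodule.span (ZMod p) (Set.range v) := by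
    intro x
    obtain ⟨c, rfl⟩ := hg x
    rw [hΦ]
    exact Submodule.sum_mem _ fun i _ =>
      Submodule.smul_mem _ _ (Submodule.subset_span (Set.mem_range_self i))
  -- the independent family lives in the span of `v`
  set W := Submodule.span (ZMod p) (Set.range v) with hW
  let w' : Fin n → W := fun k => ⟨(Φ (e k)).toAdd, hmem (e k)⟩
  have hw' : LinearIndependent (ZMod p) w' := by
    apply LinearIndependent.of_comp W.subtype
    exact hind
  have : Module.Finite (ZMod p) W := by
    rw [hW]
    exact FiniteDimensional.span_of_finite (ZMod p) (Set.finite_range v)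
  have h1 : n ≤ finrank (ZMod p) W := by
    have := hw'.fintype_card_le_finrank
    simpa using this
  have h2 : finrank (ZMod p) W ≤ n := by
    have := finrank_range_le_card (R := ZMod p) v
    simpa [Set.finrank] using this
  have hvind : LinearIndependent (ZMod p) v := by
    rw [linearIndependent_iff_card_eq_finrank_span]
    simp only [Fintype.card_fin, Set.finrank]
    exact le_antisymm h1 h2
  obtain ⟨c, rfl⟩ := hg u
  have h0 : ∑ i, (c i : ZMod p) • v i = 0 := by
    rw [← hΦ, hu]; rfl
  have hc : ∀ i, (c i : ZMod p) = 0 := fun i =>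
    Fintype.linearIndependent_iff.mp hvind _ h0 i
  have hd : ∀ i, ∃ d : ℤ, c i = p * d := fun i =>
    (ZMod.intCast_zmod_eq_zero_iff_dvd (c i) p).mp (hc i)
  choose d hd using hd
  refine ⟨∏ i, g i ^ d i, ?_⟩
  rw [← Finset.prod_pow]
  refine Finset.prod_congr rfl fun i _ => ?_
  rw [hd i, ← zpow_natCast, ← zpow_mul, mul_comm]

/-- The unit group of a number field is generated by `rank K + 1` elements. -/
theorem units_generated (K : Type*) [Field K] [NumberField K] :
    ∃ g : Fin (Units.rank K + 1) → (𝓞 K)ˣ,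
      ∀ x : (𝓞 K)ˣ, ∃ c : Fin (Units.rank K + 1) → ℤ, x = ∏ i, g i ^ c i := by
  obtain ⟨t, ht⟩ := IsCyclic.exists_generator (α := Units.torsion K)
  refine ⟨Fin.cons (t : (𝓞 K)ˣ) (Units.fundSystem K), fun x => ?_⟩
  obtain ⟨⟨ζ', c⟩, hx, -⟩ := Units.exist_unique_eq_mul_prod K x
  obtain ⟨a, ha⟩ := Subgroup.mem_zpowers_iff.mp (ht ζ')
  refine ⟨Fin.cons a c, ?_⟩
  rw [Fin.prod_univ_succ]
  simp only [Fin.cons_zero, Fin.cons_succ]
  rw [hx]
  congr 1
  simp only
  rw [← ha]
  simp

/-- For the `p`-th cyclotomic field (`p` an odd prime), `rank K + 1 = (p - 1) / 2`. -/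
theorem rank_add_one_cyclotomic (p : ℕ) [hp : Fact p.Prime] (hp2 : p ≠ 2)
    (K : Type*) [Field K] [NumberField K] [IsCyclotomicExtension {p} ℚ K] :
    Units.rank K + 1 = (p - 1) / 2 := by
  have hp3 : 2 < p := lt_of_le_of_ne hp.out.two_le (Ne.symm hp2)
  have h1 := IsCyclotomicExtension.Rat.nrRealPlaces_eq_zero (n := p) K hp3
  have h2 := IsCyclotomicExtension.Rat.nrComplexPlaces_eq_totient_div_two p K
  have h3 := InfinitePlace.card_eq_nrRealPlaces_add_nrComplexPlaces K
  rw [h1, h2, Nat.totient_prime hp.out, zero_add] at h3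
  rw [Units.rank, h3]
  have : 1 ≤ (p - 1) / 2 := by omega
  omega

/-- Kummer's lemma, abstract form: if a homomorphism `Φ` from the units of the `p`-th cyclotomic
field to an `𝔽_p`-vector space maps some `(p-1)/2` units to a linearly independent family,
then every unit in the kernel of `Φ` is a `p`-th power. -/
theorem kummer_of_linearIndependent (p : ℕ) [Fact p.Prime] (hp2 : p ≠ 2)
    (K : Type*) [Field K] [NumberField K] [IsCyclotomicExtension {p} ℚ K]
    {V : Type*} [AddCommGroup V] [Module (ZMod p) V]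
    (Φ : (𝓞 K)ˣ →* Multiplicative V) (e : Fin ((p - 1) / 2) → (𝓞 K)ˣ)
    (hind : LinearIndependent (ZMod p) (fun k => (Φ (e k)).toAdd))
    (u : (𝓞 K)ˣ) (hu : Φ u = 1) : ∃ v : (𝓞 K)ˣ, u = v ^ p := by
  obtain ⟨g, hg⟩ := units_generated K
  have hr := rank_add_one_cyclotomic p hp2 K
  revert g hg
  rw [hr]
  intro g hg
  exact exists_pow_eq_of_linearIndependent g hg Φ e hind u hu

end Fermat.Agent.H90
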